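import Fermat.Agent.S48.H828.IActGroup

/-!
# S48 / Tower A1 / IGUSA1, pieces I-ACT / I-F0 (helper828), part 5: the functions `j(dτ)`

Assume `ζ ∈ Eˣ` maps to `exp(2πi/M)`.  Then for `d ∣ M`:

* `Jd_mem_iactRing` : `τ ↦ j(dτ)` lies in `iactRing ι M` (all its `SL(2,ℤ)`-translates have
  `E`-rational `X`-expansions);
* `iactExp_Jd` : its `X`-expansion is `jq(X^{dM})`, written `qExpand M (qExpand d jq)`;
* `iact_smul_Jd_of_mem_Gamma0`, `iact_mem_Gamma0_of_smul_JM` : the stabiliser of `j(Mτ)` is `Γ₀(M)`;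
* `iactB_inv` (**I-F0**, field `B_inv` of `H856.IgusaData`): every `Γ₀(M)`-invariant element of
  `IActField ι M` lies in `E(j(dτ) : d ∣ M)`.
-/

set_option autoImplicit false
set_option linter.unusedSectionVars false

noncomputable section

open ModularCurve HahnSeries UpperHalfPlane
open scoped MatrixGroups Manifold

namespace Fermat.Agent.S48.H828

open Fermat.Agent.S24 Fermat.Agent.S24.H997 Fermat.Agent.S24.H624 Fermat.Agent.S20.L1

/-! ### a Galois correspondence lemma (elementwise form) -/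

/-- Let a finite group `G` act faithfully on a field `L`, let `F₀` be a subfield containing the
invariants, and let `B ≤ G` contain every element fixing `F₀` pointwise.  Then every `B`-invariant
element of `L` lies in `F₀`. -/
theorem iact_mem_of_fixed {L : Type*} [Field L] {G : Type*} [Group G] [Finite G]
    [MulSemiringAction G L] [FaithfulSMul G L] (B : Subgroup G) (F₀ : Subfield L)
    (hFG : ∀ x : L, (∀ g : G, g • x = x) → x ∈ F₀)
    (hdist : ∀ g : G, (∀ x ∈ F₀, g • x = x) → g ∈ B)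
    (x : L) (hx : ∀ b ∈ B, b • x = x) : x ∈ F₀ := by
  classical
  let F : IntermediateField (FixedPoints.subfield G L) L :=
    { F₀ with
      algebraMap_mem' := fun r => hFG _ (fun g => r.2 g) }
  have hmem : ∀ y : L, y ∈ F ↔ y ∈ F₀ := fun y => Iff.rfl
  have hfix : fixingSubgroup G (F : Set L) ≤ B := by
    intro g hg
    apply hdist
    intro y hy
    exact (mem_fixingSubgroup_iff G).mp hg y ((hmem y).mpr hy)
  have : IsGaloisGroup G (FixedPoints.subfield G L) L := IsGaloisGroup.fixedPoints G L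
  have h1 : (FixedPoints.intermediateField (fixingSubgroup G (F : Set L)) :
      IntermediateField (FixedPoints.subfield G L) L) = F :=
    IsGaloisGroup.fixedPoints_fixingSubgroup G (FixedPoints.subfield G L) L F
  rw [← hmem, ← h1]
  rintro ⟨g, hg⟩
  exact hx g (hfix hg)

variable {E : Type*} [Field E] [CharZero E] {ι : E →+* ℂ} {M : ℕ} [NeZero M]

/-! ### `j(dτ)` -/

theorem iact_Gamma_le_Gamma0 {γ : SL(2, ℤ)} (hγ : γ ∈ CongruenceSubgroup.Gamma M) :
    γ ∈ CongruenceSubgroup.Gamma0 M := by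
  rw [CongruenceSubgroup.Gamma0_mem]
  exact (CongruenceSubgroup.Gamma_mem.mp hγ).2.2.1

theorem iact_infRoot_mul (b : ℤ) {d' c : ℕ} (hd' : 0 < d') (hc : 0 < c) (h : M = d' * c) :
    infRoot (b * c) M = infRoot b d' := by
  apply Units.ext
  rw [infRoot_coe, infRoot_coe]
  congr 1
  have h1 : (d' : ℂ) ≠ 0 := by exact_mod_cast hd'.ne'
  have h2 : (c : ℂ) ≠ 0 := by exact_mod_cast hc.ne'
  rw [h]
  push_cast
  field_simp

theorem compSL_Jd_rat (ζ : Eˣ) (hζ : Units.map (ι : E →* ℂ) ζ = infRoot 1 M) {d : ℕ}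
    (hd : d ∣ M) (γ : SL(2, ℤ)) : IActRat ι M (compSL γ (Jd d)) := by
  have hM : 0 < M := Nat.pos_of_ne_zero (NeZero.ne M)
  have hd0 : 0 < d := Nat.pos_of_dvd_of_pos hd hM
  obtain ⟨γ', a, d', b, ha, hd', had, h00, h01, h10, h11⟩ := inf_exists_hnf d hd0 γ
  have hd'M : d' ∣ M := (Dvd.intro_left a had).trans hd
  obtain ⟨c, hc⟩ := hd'M
  have hc0 : 0 < c := by
    rcases Nat.eq_zero_or_pos c with h | h
    · rw [h, mul_zero] at hc; omega
    · exact h
  haveI : NeZero (a * c) := ⟨(Nat.mul_pos ha hc0).ne'⟩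
  have h := inf_J_infAff_exp infExp_jFun (e := a * c) (N := M) b ha hd' hM (by rw [hc]; ring)
  refine ⟨qExpand E (a * c) (infTwist (ζ ^ (b * c)) (coeffEmb E jq)), ?_⟩
  have hroot : Units.map (ι : E →* ℂ) (ζ ^ (b * c)) = infRoot b d' := by
    rw [map_zpow, hζ, iact_infRoot_one_zpow, iact_infRoot_mul b hd' hc0 hc]
  have hser : coeffMap ι (qExpand E (a * c) (infTwist (ζ ^ (b * c)) (coeffEmb E jq)))
      = infGenExp (a * c) b d' := by
    rw [coeffMap_qExpand, iact_coeffMap_infTwist, iact_coeffMap_coeffEmb, hroot]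
    rfl
  rw [hser]
  refine h.congr fun τ => ?_
  show jFun (infAff a b d' τ) = jFun (infAff d 0 1 (γ • τ))
  rw [inf_aff_smul_eq hd0 ha hd' γ γ' h00 h01 h10 h11 τ, jFun_smul']

theorem Jd_mem_iactRing (ζ : Eˣ) (hζ : Units.map (ι : E →* ℂ) ζ = infRoot 1 M) {d : ℕ}
    (hd : d ∣ M) : Jd d ∈ iactRing ι M := by
  have hM : 0 < M := Nat.pos_of_ne_zero (NeZero.ne M)
  have hd0 : 0 < d := Nat.pos_of_dvd_of_pos hd hM
  refine ⟨mdiff_Jd hd0, fun γ hγ => ?_, fun γ => compSL_Jd_rat ζ hζ hd γ⟩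
  funext τ
  exact Jd_inv M d hd γ (iact_Gamma_le_Gamma0 hγ) τ

/-- `τ ↦ j(dτ)` as an element of `iactRing ι M`. -/
def iactJd (ζ : Eˣ) (hζ : Units.map (ι : E →* ℂ) ζ = infRoot 1 M) (d : ℕ) (hd : d ∣ M) :
    iactRing ι M := ⟨Jd d, Jd_mem_iactRing ζ hζ hd⟩

/-- `τ ↦ j(dτ)` as an element of `IActField ι M`. -/
def iactFJd (ζ : Eˣ) (hζ : Units.map (ι : E →* ℂ) ζ = infRoot 1 M) (d : ℕ) (hd : d ∣ M) :
    IActField ι M := algebraMap (iactRing ι M) (IActField ι M) (iactJd ζ hζ d hd)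

variable (ζ : Eˣ) (hζ : Units.map (ι : E →* ℂ) ζ = infRoot 1 M)

theorem iactJd_one : iactJd ζ hζ 1 (one_dvd M) = iactJ ι M :=
  Subtype.ext Jd_one

theorem iactFJd_one : iactFJd ζ hζ 1 (one_dvd M) = iactFJ ι M := by
  rw [iactFJd, iactJd_one, iactFJ]

theorem iactExp_Jd (d : ℕ) [NeZero d] (hd : d ∣ M) :
    iactExp ι M (iactJd ζ hζ d hd) = qExpand E M (qExpand E d (coeffEmb E jq)) := by
  have hM : 0 < M := Nat.pos_of_ne_zero (NeZero.ne M)
  have hd0 : 0 < d := Nat.pos_of_ne_zero (NeZero.ne d)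
  apply iactExp_eq
  have h := inf_J_mul_exp infExp_jFun hd0 hM
  rw [coeffMap_qExpand, coeffMap_qExpand, iact_coeffMap_coeffEmb, qExpand_qExpand]
  have e : qExpand ℂ (M * d) (coeffEmb ℂ jq) = qExpand ℂ (d * M) infJq :=
    qExpand_congr (Nat.mul_comm M d) _
  rw [e]
  exact h

theorem iactFieldExp_Jd (d : ℕ) [NeZero d] (hd : d ∣ M) :
    iactFieldExp ι M (iactFJd ζ hζ d hd) = qExpand E M (qExpand E d (coeffEmb E jq)) := by
  rw [iactFJd, iactFieldExp_algebraMap, iactExp_Jd]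

theorem iact_smul_Jd_of_mem_Gamma0 {γ : SL(2, ℤ)} (hγ : γ ∈ CongruenceSubgroup.Gamma0 M)
    (d : ℕ) (hd : d ∣ M) : γ • iactJd ζ hζ d hd = iactJd ζ hζ d hd := by
  apply Subtype.ext
  funext τ
  exact Jd_inv M d hd γ⁻¹ (inv_mem hγ) τ

theorem iact_mem_Gamma0_of_smul_JM {γ : SL(2, ℤ)}
    (h : γ • iactJd ζ hζ M dvd_rfl = iactJd ζ hζ M dvd_rfl) :
    γ ∈ CongruenceSubgroup.Gamma0 M := by
  have h1 : γ⁻¹ ∈ CongruenceSubgroup.Gamma0 M := by
    apply Jd_distinct M γ⁻¹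
    intro τ
    exact congrArg (fun f : iactRing ι M => (f : ℍ → ℂ) τ) h
  simpa using inv_mem h1

/-! ### I-F0: the invariants of `Γ₀(M)` -/

/-- The field `E(j(dτ) : d ∣ M)` inside `IActField ι M`. -/
def iactF0 : Subfield (IActField ι M) :=
  Subfield.closure (Set.range (iactFC ι M) ∪ {y | ∃ (d : ℕ) (hd : d ∣ M), y = iactFJd ζ hζ d hd})

theorem iactFC_mem_F0 (c : E) : iactFC ι M c ∈ iactF0 ζ hζ :=
  Subfield.subset_closure (Or.inl ⟨c, rfl⟩)

theorem iactFJd_mem_F0 (d : ℕ) (hd : d ∣ M) : iactFJd ζ hζ d hd ∈ iactF0 ζ hζ :=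
  Subfield.subset_closure (Or.inr ⟨d, hd, rfl⟩)

theorem iactFJ_mem_F0 : iactFJ ι M ∈ iactF0 ζ hζ := by
  rw [← iactFJd_one ζ hζ]
  exact iactFJd_mem_F0 ζ hζ 1 (one_dvd M)

theorem iact_eval₂_mem_F0 (P : Polynomial E) :
    Polynomial.eval₂ (iactFC ι M) (iactFJ ι M) P ∈ iactF0 ζ hζ := by
  rw [Polynomial.eval₂_eq_sum_range]
  refine sum_mem fun i _ => mul_mem (iactFC_mem_F0 ζ hζ _) (pow_mem (iactFJ_mem_F0 ζ hζ) i)

/-- **I-F0.** Every `Γ₀(M)`-invariant element of `IActField ι M` lies in `E(j(dτ) : d ∣ M)`. -/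
theorem iactB_inv (x : IActField ι M) (hx : ∀ b ∈ iactB ι M, b x = x) : x ∈ iactF0 ζ hζ := by
  haveI : Finite (iactG ι M) := iactG_finite
  refine iact_mem_of_fixed (G := iactG ι M) ((iactB ι M).subgroupOf (iactG ι M)) (iactF0 ζ hζ)
    ?_ ?_ x ?_
  · intro y hy
    obtain ⟨P, Q, -, rfl⟩ := iactG_inv y (fun g hg => hy ⟨g, hg⟩)
    exact div_mem (iact_eval₂_mem_F0 ζ hζ P) (iact_eval₂_mem_F0 ζ hζ Q)
  · rintro ⟨g, γ, rfl⟩ hg
    rw [Subgroup.mem_subgroupOf]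
    refine ⟨γ, ?_, rfl⟩
    apply iact_mem_Gamma0_of_smul_JM ζ hζ
    have h1 := hg _ (iactFJd_mem_F0 ζ hζ M dvd_rfl)
    have h2 : γ • iactFJd ζ hζ M dvd_rfl = iactFJd ζ hζ M dvd_rfl := h1
    rw [iactFJd, iact_smul_algebraMap] at h2
    exact IsFractionRing.injective (iactRing ι M) (IActField ι M) h2
  · rintro ⟨b, hbG⟩ hb
    rw [Subgroup.mem_subgroupOf] at hb
    exact hx b hb

end Fermat.Agent.S48.H828
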