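import Fermat.Agent.S48.H856.IgusaS18

/-!
# S48 / Tower A1 / IGUSA1 (helper828), part 9a: the `q`-expansion principle at infinity

Generic complement to `H856.IgusaData.qep_fin`: the same statement in the chart `x⁻¹`
(field `qep_inf` of `S18.Alg.GoodModel`), from `IgusaData.stable` and
`H588.qep_of_unique_gauss` applied to `x⁻¹`.

* `iact_eval_inv_eq`   : `P(x⁻¹) = (reflect P)(x) · x^{-deg P}`;
* `iact_gauss_inv`     : the field `gauss` of `IgusaData` at `x⁻¹` from the one at `x`;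
* `iact_igusa_qep_inf` : `qep_inf` for every intermediate field `Fc ≤ Ffull`.
-/

set_option autoImplicit false

namespace Fermat.Agent.S48.H828

open Fermat.Agent.S18.Alg Polynomial Fermat.Agent.S48.H856

variable {Ω : Type*} [Field Ω]

theorem iact_eval_inv_eq (P : Polynomial Ω) {x : Ω} (hx : x ≠ 0) :
    P.eval x⁻¹ = (P.reflect P.natDegree).eval x * (x⁻¹) ^ P.natDegree := by
  let _ : Invertible (x⁻¹) := invertibleOfNonzero (inv_ne_zero hx)
  have h := eval₂_reflect_mul_pow (RingHom.id Ω) (x⁻¹) P.natDegree P le_rfl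
  rw [invOf_eq_inv, inv_inv, eval₂_id, eval₂_id] at h
  exact h.symm

theorem iact_gauss_inv {R V : Subring Ω} {x : Ω} (hx0 : x ≠ 0) (hxV : x ∈ V)
    (hgauss : ∀ P : Polynomial Ω, (∀ i, P.coeff i ∈ R) →
      (∃ i, P.coeff i ≠ 0 ∧ (P.coeff i)⁻¹ ∈ R) → (P.eval x)⁻¹ ∈ V) :
    ∀ P : Polynomial Ω, (∀ i, P.coeff i ∈ R) →
      (∃ i, P.coeff i ≠ 0 ∧ (P.coeff i)⁻¹ ∈ R) → (P.eval x⁻¹)⁻¹ ∈ V := by
  rintro P hP ⟨i, hi0, hiR⟩
  have hiN : i ≤ P.natDegree := le_natDegree_of_ne_zero hi0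
  have h1 : ((P.reflect P.natDegree).eval x)⁻¹ ∈ V := by
    refine hgauss _ (fun k => ?_) ⟨revAt P.natDegree i, ?_, ?_⟩
    · rw [coeff_reflect]; exact hP _
    · rw [coeff_reflect, revAt_invol]; exact hi0
    · rw [coeff_reflect, revAt_invol]; exact hiR
  rw [iact_eval_inv_eq P hx0, mul_inv, inv_pow, inv_inv]
  exact V.mul_mem h1 (V.pow_mem hxV _)

theorem iact_ratField_inv_le (Ec : Subfield Ω) (x : Ω) : ratField Ec x ≤ ratField Ec x⁻¹ := by
  unfold ratField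
  rw [Subfield.closure_le]
  rintro z (hz | hz)
  · exact Subfield.subset_closure (Or.inl hz)
  · rw [Set.mem_singleton_iff] at hz
    have h1 : x⁻¹ ∈ Subfield.closure ((Ec : Set Ω) ∪ {x⁻¹}) :=
      Subfield.subset_closure (Or.inr rfl)
    have h2 := (Subfield.closure ((Ec : Set Ω) ∪ {x⁻¹})).inv_mem h1
    rw [inv_inv] at h2
    rw [hz]; exact h2

variable {Ec F0 Ffull : Subfield Ω} {R V : Subring Ω} {w x : Ω}
  {G B : Subgroup (Ω ≃+* Ω)} {t : Ω ≃+* Ω}

theorem iact_igusa_x_ne_zero (h : IgusaData Ec F0 Ffull R V w x G B t) : x ≠ 0 := by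
  rintro rfl
  exact h.x_transcendental isAlgebraic_zero

/-- **Node IGUSA1 at infinity.**  The `q`-expansion principle in the chart `x⁻¹`
(`GoodModel.qep_inf`) for every intermediate field `Fc ≤ Ffull`. -/
theorem iact_igusa_qep_inf (h : IgusaData Ec F0 Ffull R V w x G B t) (Fc : Subfield Ω)
    (hFc : Fc ≤ Ffull) (hwFc : w ∈ Fc) :
    ∀ b ∈ chart Fc R x⁻¹, b * w⁻¹ ∈ V → b * w⁻¹ ∈ chart Fc R x⁻¹ := by
  have := h.G_finite
  have hx0 : x ≠ 0 := iact_igusa_x_ne_zero h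
  intro b hb hbV
  have hbF : b * w⁻¹ ∈ Ffull := Ffull.mul_mem (hFc hb.1) (Ffull.inv_mem (hFc hwFc))
  have hRF : R ≤ Ffull.toSubring := fun r hr => h.E_le (h.R_le r hr)
  have hxt : Transcendental R x⁻¹ := fun halg => h.x_transcendental (IsAlgebraic.inv_iff.mp halg)
  refine H588.qep_of_unique_gauss Ec Fc Ffull R (V ⊓ Ffull.toSubring) h.R_le h.R_total h.w_mem
    h.w_ne_zero h.w_inv_not_mem h.w_discrete hxt hFc hwFc
    (le_inf h.R_le_V hRF) (fun hmem => h.w_inv_not_mem_V hmem.1) ?_ G h.G_fix_E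
    (fun g hg => by rw [map_inv₀, h.G_fix_x g hg])
    h.G_stable ?_ (fun f hf hfix => iact_ratField_inv_le Ec x (h.G_inv f hf hfix)) b hb
    ⟨hbV, hbF⟩
  · intro P hP hP'
    refine ⟨iact_gauss_inv hx0 h.x_mem_V h.gauss P hP hP', Ffull.inv_mem ?_⟩
    rw [Polynomial.eval_eq_sum_range]
    exact Ffull.sum_mem fun i _ =>
      Ffull.mul_mem (hRF (hP i)) (Ffull.pow_mem (Ffull.inv_mem h.x_mem) i)
  · intro g hg f hf
    exact ⟨h.stable g hg f hf.2 hf.1, h.G_stable g hg f hf.2⟩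

end Fermat.Agent.S48.H828
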