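import Fermat.Agent.S48.H828.IActMap
import Fermat.Agent.S18.Mod.Defs

/-!
# S48 / Tower A1 / IGUSA1 (helper828), part 7: the comparison map `q ↦ X^M`

* `iact_exists_zeta` : `Q̄` contains `ζ` with `ιK ζ = exp(2πi/M)`;
* `iactPhi M : S18.Mod.Om M →+* IActField ιK M` : the field hom from the function field of
  `X₀(M)` over `Q̄` (Prelude `modularFunctionFieldBar M ⊆ Q̄((q))`) to the full-level field, with
  `iactFieldExp (iactPhi f) = f(X^M)` (`iactFieldExp_phi`);
* `iactPhi_algebraMap`, `iactPhi_jd` : it maps constants to constants and `j(q^d)` to `j(dτ)`.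
-/

set_option autoImplicit false
set_option linter.unusedSectionVars false

noncomputable section

open ModularCurve HahnSeries UpperHalfPlane
open scoped MatrixGroups Manifold

namespace Fermat.Agent.S48.H828

open Fermat.Agent.S24 Fermat.Agent.S24.H997 Fermat.Agent.S24.H624 Fermat.Agent.S20.L1
open Fermat.Agent.S18 Fermat.Agent.S18.Mod

variable (M : ℕ) [NeZero M]

/-- `Q̄` contains a root of unity mapping to `exp(2πi/M)`. -/
theorem iact_exists_zeta : ∃ ζ : Qbˣ, Units.map (ιK : Qb →* ℂ) ζ = infRoot 1 M := by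
  have hM0 : M ≠ 0 := NeZero.ne M
  obtain ⟨ξ, hξ⟩ := HasEnoughRootsOfUnity.exists_primitiveRoot Qb M
  have hξ' : IsPrimitiveRoot (ιK ξ) M := hξ.map_of_injective ιK_injective
  have hz : Complex.exp (2 * Real.pi * Complex.I / M) ^ M = 1 :=
    (Complex.isPrimitiveRoot_exp M hM0).pow_eq_one
  obtain ⟨i, -, hi⟩ := hξ'.eq_pow_of_pow_eq_one hz
  have hξ0 : ξ ≠ 0 := hξ.ne_zero hM0
  refine ⟨Units.mk0 (ξ ^ i) (pow_ne_zero i hξ0), ?_⟩
  apply Units.ext
  rw [infRoot_coe]
  show ιK (ξ ^ i) = _
  rw [map_pow, hi]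
  congr 1
  push_cast
  ring

/-- A chosen `ζ ∈ Q̄` with `ιK ζ = exp(2πi/M)`. -/
def iactZeta : Qbˣ := Classical.choose (iact_exists_zeta M)

theorem iactZeta_spec : Units.map (ιK : Qb →* ℂ) (iactZeta M) = infRoot 1 M :=
  Classical.choose_spec (iact_exists_zeta M)

/-- `j(dτ)` in `IActField ιK M`. -/
def iactJdQb (d : ℕ) (hd : d ∣ M) : IActField ιK M :=
  iactFJd (iactZeta M) (iactZeta_spec M) d hd

/-- The `X`-expansions of the elements of the full-level field, as a subfield of `Q̄((X))`. -/
def iactRange : Subfield (LaurentSeries Qb) := (iactFieldExp ιK M).fieldRange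

theorem iact_qExpand_mem_range (f : LaurentSeries Qb) (hf : f ∈ modularFunctionFieldBar M) :
    qExpand Qb M f ∈ iactRange M := by
  have hle : (modularFunctionFieldBar M).toSubfield ≤ (iactRange M).comap (qExpand Qb M) := by
    show Subfield.closure _ ≤ _
    rw [Subfield.closure_le]
    rintro x (⟨c, rfl⟩ | ⟨y, hy, rfl⟩)
    · rw [SetLike.mem_coe, Subfield.mem_comap, algebraMap_laurentSeries_eq_single]
      refine ⟨iactFC ιK M c, ?_⟩
      rw [iactFieldExp_C]
      show HahnSeries.C c = qExpand Qb M (HahnSeries.single 0 c)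
      rw [qExpand_single, mul_zero]
      rfl
    · rw [SetLike.mem_coe, Subfield.mem_comap]
      have hle2 : (modularFunctionFieldFull M).toSubfield ≤
          (iactRange M).comap ((qExpand Qb M).comp (coeffEmb Qb)) := by
        show Subfield.closure _ ≤ _
        rw [Subfield.closure_le]
        rintro z (⟨c, rfl⟩ | ⟨d, hdne, hd, rfl⟩)
        · rw [SetLike.mem_coe, Subfield.mem_comap, RingHom.comp_apply,
            algebraMap_laurentSeries_eq_single, coeffEmb, coeffMap_single, qExpand_single,
            mul_zero]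
          exact ⟨iactFC ιK M (algebraMap ℚ Qb c), by rw [iactFieldExp_C]; rfl⟩
        · rw [SetLike.mem_coe, Subfield.mem_comap, RingHom.comp_apply]
          refine ⟨iactJdQb M d hd, ?_⟩
          rw [iactJdQb, iactFieldExp_Jd, coeffEmb, coeffMap_qExpand]
      exact hle2 hy
  exact hle hf

/-- The ring hom `f ↦ f(X^M)` from the function field of `X₀(M)` into the range of the
expansion map. -/
def iactPhiAux : Om M →+* (iactFieldExp ιK M).range :=
  ((qExpand Qb M).comp (modularFunctionFieldBar M).toSubring.subtype).codRestrict _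
    (fun f => by
      obtain ⟨y, hy⟩ := iact_qExpand_mem_range M f.1 f.2
      exact ⟨y, hy⟩)

/-- **The comparison map** `q ↦ X^M`. -/
def iactPhi : Om M →+* IActField ιK M :=
  ((RingEquiv.ofBijective (iactFieldExp ιK M).rangeRestrict
      ⟨(iactFieldExp ιK M).rangeRestrict.injective,
        (iactFieldExp ιK M).rangeRestrict_surjective⟩).symm :
      (iactFieldExp ιK M).range →+* IActField ιK M).comp (iactPhiAux M)

variable {M}

theorem iactFieldExp_phi (f : Om M) :
    iactFieldExp ιK M (iactPhi M f) = qExpand Qb M (f : LaurentSeries Qb) := by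
  have h := (RingEquiv.ofBijective (iactFieldExp ιK M).rangeRestrict
      ⟨(iactFieldExp ιK M).rangeRestrict.injective,
        (iactFieldExp ιK M).rangeRestrict_surjective⟩).apply_symm_apply (iactPhiAux M f)
  have h2 := congrArg (fun z : (iactFieldExp ιK M).range => (z : LaurentSeries Qb)) h
  exact h2

theorem iactPhi_eq_iff (f : Om M) (y : IActField ιK M) :
    iactPhi M f = y ↔ iactFieldExp ιK M y = qExpand Qb M (f : LaurentSeries Qb) := by
  constructor
  · rintro rfl
    exact iactFieldExp_phi f
  · intro h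
    apply iactFieldExp_injective
    rw [iactFieldExp_phi, h]

theorem iactPhi_algebraMap (c : Qb) : iactPhi M (algebraMap Qb (Om M) c) = iactFC ιK M c := by
  rw [iactPhi_eq_iff, iactFieldExp_C]
  show HahnSeries.C c = qExpand Qb M (algebraMap Qb (LaurentSeries Qb) c)
  rw [algebraMap_laurentSeries_eq_single, qExpand_single, mul_zero]
  rfl

theorem iactPhi_jd (d : ℕ) [NeZero d] (hd : d ∣ M) :
    iactPhi M (jd M d hd) = iactJdQb M d hd := by
  rw [iactPhi_eq_iff, iactJdQb, iactFieldExp_Jd]
  show _ = qExpand Qb M (coeffEmb Qb (qExpand ℚ d jq))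
  rw [coeffEmb, coeffMap_qExpand]

theorem iactPhi_jOm : iactPhi M (jOm M) = iactFJ ιK M := by
  rw [jOm, iactPhi_jd, iactJdQb, iactFJd_one]

theorem iactPhi_injective : Function.Injective (iactPhi M) := (iactPhi M).injective

end Fermat.Agent.S48.H828
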