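import Fermat.Agent.S18.Alg.Spec

/-!
# S48 / Tower A1 / IGUSA1 (helper828), part 8a: transport of the `q`-expansion principle
along a roof `Ω₁ --φ--> Ω₂ <--θ-- Ω₃`

Language of `S18/Alg/Spec.lean` (`polyRing`, `chart`); Mathlib + `S18/Alg/Spec` only.
(The one-map lemmas are the same as helper608's `IS28Gen` on his branch; restated here with
fresh names so that this file is self-contained.)

* `iact_isIntegral_subring_iff`, `iact_polyRing_map`, `iact_isIntegral_map_iff`,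
  `iact_map_mem_chart_iff` : `chart` commutes with field homomorphisms;
* `iact_mem_of_roof` : the valuation ring `V₁` of `F₁` is cut out by `V₃` along the roof, as soon
  as `V₁ ⊆ V₃` along the roof and `w₃⁻¹ ∉ V₃`;
* `iact_qep_roof` : the `q`-expansion principle for `(F₁, R₁, V₁, w₁, x₁)` inside `Ω₁` gives the
  one for `(F₃, R₃, V₃, w₃, x₃)` inside `Ω₃`.
-/

set_option autoImplicit false

namespace Fermat.Agent.S48.H828

open Fermat.Agent.S18.Alg Polynomial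

variable {Ω₁ Ω₂ Ω₃ : Type*} [Field Ω₁] [Field Ω₂] [Field Ω₃]

/-- Integrality over a subring, in terms of polynomials over the ambient field. -/
theorem iact_isIntegral_subring_iff {Ω : Type*} [Field Ω] (T : Subring Ω) (b : Ω) :
    IsIntegral T b ↔ ∃ p : Polynomial Ω, p.Monic ∧ (∀ i, p.coeff i ∈ T) ∧ p.eval b = 0 := by
  constructor
  · rintro ⟨q, hq, hqb⟩
    refine ⟨q.map T.subtype, hq.map _, fun i => ?_, ?_⟩
    · rw [coeff_map]; exact (q.coeff i).2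
    · rw [eval_map]; exact hqb
  · rintro ⟨p, hp, hc, hpb⟩
    have hsub : (↑p.coeffs : Set Ω) ⊆ T := by
      intro c hc'
      obtain ⟨i, _, rfl⟩ := Polynomial.mem_coeffs_iff.mp (by exact_mod_cast hc')
      exact hc i
    refine ⟨p.toSubring T hsub, (p.monic_toSubring _ _).mpr hp, ?_⟩
    have : eval₂ (algebraMap T Ω) b (p.toSubring T hsub)
        = ((p.toSubring T hsub).map T.subtype).eval b := by
      rw [eval_map]; rfl
    rw [this, p.map_toSubring T hsub, hpb]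

/-- `(R.map φ)[φ x] = (R[x]).map φ`. -/
theorem iact_polyRing_map (φ : Ω₁ →+* Ω₂) (R : Subring Ω₁) (x : Ω₁) :
    polyRing (R.map φ) (φ x) = (polyRing R x).map φ := by
  unfold polyRing
  rw [RingHom.map_closure, Set.image_union, Set.image_singleton]
  rfl

/-- Integrality is transported by a field homomorphism, in both directions. -/
theorem iact_isIntegral_map_iff (φ : Ω₁ →+* Ω₂) (T : Subring Ω₁) (b : Ω₁) :
    IsIntegral (T.map φ) (φ b) ↔ IsIntegral T b := by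
  rw [iact_isIntegral_subring_iff, iact_isIntegral_subring_iff]
  constructor
  · rintro ⟨p, hp, hc, hpb⟩
    have hlift : p ∈ Polynomial.lifts φ := by
      rw [Polynomial.lifts_iff_coeff_lifts]
      intro n
      obtain ⟨a, -, ha⟩ := hc n
      exact ⟨a, ha⟩
    obtain ⟨q, hq, -, hqm⟩ := Polynomial.lifts_and_degree_eq_and_monic hlift hp
    refine ⟨q, hqm, fun i => ?_, ?_⟩
    · obtain ⟨a, haT, ha⟩ := hc i
      have h1 : φ (q.coeff i) = φ a := by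
        rw [ha, ← hq, coeff_map]
      rw [φ.injective h1]
      exact haT
    · apply φ.injective
      rw [map_zero, ← hpb, ← hq, eval_map, eval₂_at_apply]
  · rintro ⟨p, hp, hc, hpb⟩
    refine ⟨p.map φ, hp.map _, fun i => ?_, ?_⟩
    · rw [coeff_map]
      exact ⟨p.coeff i, hc i, rfl⟩
    · rw [eval_map, eval₂_at_apply, hpb, map_zero]

/-- The chart of the image is the image of the chart. -/
theorem iact_map_mem_chart_iff (φ : Ω₁ →+* Ω₂) (F : Subfield Ω₁) (R : Subring Ω₁) (x b : Ω₁) :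
    φ b ∈ chart (F.map φ) (R.map φ) (φ x) ↔ b ∈ chart F R x := by
  constructor
  · rintro ⟨⟨b₁, hb₁, hb⟩, hint⟩
    rw [iact_polyRing_map, iact_isIntegral_map_iff] at hint
    have : b₁ = b := φ.injective hb
    exact ⟨this ▸ hb₁, hint⟩
  · rintro ⟨hb₁, hint⟩
    refine ⟨⟨b, hb₁, rfl⟩, ?_⟩
    rw [iact_polyRing_map, iact_isIntegral_map_iff]
    exact hint

/-- An element of the chart of the image comes from the chart. -/
theorem iact_exists_of_mem_chart_map (φ : Ω₁ →+* Ω₂) (F : Subfield Ω₁) (R : Subring Ω₁)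
    (x : Ω₁) {y : Ω₂} (hy : y ∈ chart (F.map φ) (R.map φ) (φ x)) :
    ∃ b ∈ chart F R x, φ b = y := by
  obtain ⟨b, hb, rfl⟩ := hy.1
  exact ⟨b, (iact_map_mem_chart_iff φ F R x b).mp hy, rfl⟩

section Roof

variable (φ : Ω₁ →+* Ω₂) (θ : Ω₃ →+* Ω₂)
  {F₁ : Subfield Ω₁} {R₁ V₁ : Subring Ω₁} {w₁ x₁ : Ω₁}
  {F₃ : Subfield Ω₃} {R₃ V₃ : Subring Ω₃} {w₃ x₃ : Ω₃}

/-- **The Gauss ring upstairs cuts out the Gauss ring downstairs** (along a roof).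
`V₁` total on `F₁`, `w₁` generates its non-units, `V₁ ⊆ V₃` along the roof, `w₃⁻¹ ∉ V₃`. -/
theorem iact_mem_of_roof (hw : θ w₃ = φ w₁)
    (hVtot : ∀ f ∈ F₁, f ∈ V₁ ∨ f⁻¹ ∈ V₁)
    (hVgen : ∀ f ∈ V₁, f⁻¹ ∉ V₁ → f * w₁⁻¹ ∈ V₁)
    (hmap : ∀ f ∈ V₁, ∀ g : Ω₃, θ g = φ f → g ∈ V₃)
    (hw₃ : w₃⁻¹ ∉ V₃) {f : Ω₁} (hf : f ∈ F₁) {g : Ω₃} (hgf : θ g = φ f) (hg : g ∈ V₃) :
    f ∈ V₁ := by
  by_contra hfV
  have hfinv : f⁻¹ ∈ V₁ := (hVtot f hf).resolve_left hfV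
  have hf0 : f ≠ 0 := by
    rintro rfl
    exact hfV V₁.zero_mem
  have h1 : f⁻¹ * w₁⁻¹ ∈ V₁ := hVgen f⁻¹ hfinv (by rwa [inv_inv])
  have hg0 : g ≠ 0 := by
    rintro rfl
    rw [map_zero] at hgf
    exact hf0 ((map_eq_zero φ).mp hgf.symm)
  have h2 : g⁻¹ * w₃⁻¹ ∈ V₃ := by
    refine hmap _ h1 _ ?_
    rw [map_mul, map_mul, map_inv₀, map_inv₀, map_inv₀, map_inv₀, hgf, hw]
  have h3 : g * (g⁻¹ * w₃⁻¹) ∈ V₃ := V₃.mul_mem hg h2
  rw [← mul_assoc, mul_inv_cancel₀ hg0, one_mul] at h3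
  exact hw₃ h3

/-- **Transport of the `q`-expansion principle along a roof.** -/
theorem iact_qep_roof (hF : F₃.map θ = F₁.map φ) (hR : R₃.map θ = R₁.map φ)
    (hx : θ x₃ = φ x₁) (hw : θ w₃ = φ w₁) (hw₁ : w₁ ∈ F₁)
    (hVtot : ∀ f ∈ F₁, f ∈ V₁ ∨ f⁻¹ ∈ V₁)
    (hVgen : ∀ f ∈ V₁, f⁻¹ ∉ V₁ → f * w₁⁻¹ ∈ V₁)
    (hmap : ∀ f ∈ V₁, ∀ g : Ω₃, θ g = φ f → g ∈ V₃)
    (hw₃ : w₃⁻¹ ∉ V₃)
    (hq : ∀ b ∈ chart F₁ R₁ x₁, b * w₁⁻¹ ∈ V₁ → b * w₁⁻¹ ∈ chart F₁ R₁ x₁) :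
    ∀ b ∈ chart F₃ R₃ x₃, b * w₃⁻¹ ∈ V₃ → b * w₃⁻¹ ∈ chart F₃ R₃ x₃ := by
  intro b hb hbV
  have h1 : θ b ∈ chart (F₁.map φ) (R₁.map φ) (φ x₁) := by
    rw [← hF, ← hR, ← hx]
    exact (iact_map_mem_chart_iff θ F₃ R₃ x₃ b).mpr hb
  obtain ⟨b₁, hb₁, hbb⟩ := iact_exists_of_mem_chart_map φ F₁ R₁ x₁ h1
  have h2 : θ (b * w₃⁻¹) = φ (b₁ * w₁⁻¹) := by
    rw [map_mul, map_mul, map_inv₀, map_inv₀, hw, hbb]
  have h3 : b₁ * w₁⁻¹ ∈ V₁ :=
    iact_mem_of_roof φ θ hw hVtot hVgen hmap hw₃ (F₁.mul_mem hb₁.1 (F₁.inv_mem hw₁)) h2 hbV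
  have h4 := hq b₁ hb₁ h3
  have h5 : θ (b * w₃⁻¹) ∈ chart (F₃.map θ) (R₃.map θ) (θ x₃) := by
    rw [h2, hF, hR, hx]
    exact (iact_map_mem_chart_iff φ F₁ R₁ x₁ _).mpr h4
  exact (iact_map_mem_chart_iff θ F₃ R₃ x₃ _).mp h5

end Roof

end Fermat.Agent.S48.H828
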