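import Fermat.Agent.S18.H24.NodeMod
import Fermat.Agent.S48.H856.IgusaConc
import Fermat.Agent.S48.H828.IActPhi
import Fermat.Agent.S48.H828.IActRoof

/-!
# S48 / Tower A1 / IGUSA1 (helper828), part 8b: node I-S28 on `IActField` — the field `qep0`

`E` an intermediate field of `Q̄/ℚ`, finite over `ℚ`, containing `ζ_M`; `A` a valuation subring
of `Q̄` above `ℓ ∤ M`.  Coefficient field `↥E`, embedding `ιK ∘ (E ↪ Q̄)`, valuation subring
`iactO A E = A ∩ E` of `↥E`.

* `iactSig E : ↥E →+* Q̄`, `iactO A E : ValuationSubring ↥E`;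
* `iact_exists_isDiscrete` : a uniformiser `w₀` of `A ∩ E` (from S18 `exists_partR`),
  `IsDiscrete (iactO A E) w₀`;
* `iact_F0_map`, `iact_R_map` : the `Γ₀(M)`-field `iactF0` over `E` and the S18 field `Fc M E`
  have the same image in `IActField ιK M` (roof `iactPhi`, `iactFieldMap`);
* `iact_mem_gaussRing_of_mem_Vc` : the S18 Gauss ring `Vc M A E` lands in `gaussRing`;
* `iact_qep0` : **the hypothesis `hqep0` of `H856.iact_igusaData`, verbatim**;
* `iact_igusaData_closed`, `iact_stable_closed`, `iact_qep_fin_closed` : the conclusions of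
  `H856.IgusaConc` without hypotheses.
-/

set_option autoImplicit false
set_option linter.unusedSectionVars false

noncomputable section

open ModularCurve HahnSeries UpperHalfPlane AlgebraicCurve
open scoped MatrixGroups Manifold

namespace Fermat.Agent.S48.H828

open Fermat.Agent.S24 Fermat.Agent.S24.H997 Fermat.Agent.S24.H624 Fermat.Agent.S20.L1
open Fermat.Agent.S18 Fermat.Agent.S18.Mod Fermat.Agent.S18.Alg Fermat.Agent.S48.H856

/-! ### generalities on valuation subrings -/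

theorem iact_valuation_eq_one {K : Type*} [Field K] (𝒪 : ValuationSubring K) {c : K}
    (hc0 : c ≠ 0) (hc : c ∈ 𝒪) (hc' : c⁻¹ ∈ 𝒪) : 𝒪.valuation c = 1 := by
  have h1 : 𝒪.valuation c ≤ 1 := (𝒪.valuation_le_one_iff c).mpr hc
  have h2 : 𝒪.valuation c⁻¹ ≤ 1 := (𝒪.valuation_le_one_iff _).mpr hc'
  have h0 : 𝒪.valuation c ≠ 0 := (Valuation.ne_zero_iff _).mpr hc0
  rw [map_inv₀, inv_le_one₀ (zero_lt_iff.mpr h0)] at h2
  exact le_antisymm h1 h2

variable (M : ℕ) [NeZero M] (A : ValuationSubring Qb) (E : IntermediateField ℚ Qb)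

/-- The inclusion `E → Q̄`. -/
def iactSig : ↥E →+* Qb := algebraMap ↥E Qb

theorem iactSig_apply (c : ↥E) : iactSig E c = (c : Qb) := rfl

/-- `A ∩ E` as a valuation subring of `E`. -/
def iactO : ValuationSubring ↥E := A.comap (iactSig E)

theorem mem_iactO {c : ↥E} : c ∈ iactO A E ↔ (c : Qb) ∈ A := Iff.rfl

theorem iact_algebraMap_injective : Function.Injective (algebraMap Qb (Om M)) :=
  (algebraMap Qb (Om M)).injective

theorem iact_algebraMap_mem_Rc {c : Qb} :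
    algebraMap Qb (Om M) c ∈ Rc M A E ↔ c ∈ A ∧ c ∈ E := by
  constructor
  · rintro ⟨d, hd, hdc⟩
    rw [← iact_algebraMap_injective M hdc]
    exact hd
  · intro h
    exact ⟨c, h, rfl⟩

theorem iact_algebraMap_mem_Ec {c : Qb} :
    algebraMap Qb (Om M) c ∈ Ec M E ↔ c ∈ E := by
  constructor
  · rintro ⟨d, hd, hdc⟩
    rw [← iact_algebraMap_injective M hdc]
    exact hd
  · intro h
    exact ⟨c, h, rfl⟩

/-- From the S18 field `G-R`: a uniformiser of `A ∩ E` in `↥E`. -/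
theorem iact_isDiscrete_of_partR {w : Om M} (hR : Mod.H216.PartR (Ec M E) (Rc M A E) w) :
    ∃ w₀ : ↥E, algebraMap Qb (Om M) (w₀ : Qb) = w ∧ IsDiscrete (iactO A E) w₀ := by
  obtain ⟨c, ⟨hcA, hcE⟩, hcw⟩ := hR.w_mem
  have hc0 : c ≠ 0 := by
    rintro rfl
    rw [map_zero] at hcw
    exact hR.w_ne_zero hcw.symm
  refine ⟨⟨c, hcE⟩, hcw, ?_, ?_, ?_⟩
  · -- valuation < 1
    have hle : (iactO A E).valuation ⟨c, hcE⟩ ≤ 1 :=
      ((iactO A E).valuation_le_one_iff _).mpr hcA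
    refine lt_of_le_of_ne hle fun h1 => ?_
    have h2 : (iactO A E).valuation (⟨c, hcE⟩ : ↥E)⁻¹ ≤ 1 := by
      rw [map_inv₀, h1, inv_one]
    have h3 : (⟨c, hcE⟩ : ↥E)⁻¹ ∈ iactO A E := ((iactO A E).valuation_le_one_iff _).mp h2
    have h4 : c⁻¹ ∈ A := by
      have := (mem_iactO A E).mp h3
      simpa using this
    apply hR.w_inv_not_mem
    rw [← hcw, ← map_inv₀]
    exact (iact_algebraMap_mem_Rc M A E).mpr ⟨h4, E.inv_mem hcE⟩
  · intro h
    exact hc0 (congrArg Subtype.val h)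
  · -- discreteness
    have key : ∀ y : ↥E, y ≠ 0 → y ∈ iactO A E →
        ∃ n : ℕ, (iactO A E).valuation y = (iactO A E).valuation ⟨c, hcE⟩ ^ n := by
      intro y hy hyO
      have hr : algebraMap Qb (Om M) (y : Qb) ∈ Rc M A E :=
        (iact_algebraMap_mem_Rc M A E).mpr ⟨hyO, y.2⟩
      have hr0 : algebraMap Qb (Om M) (y : Qb) ≠ 0 := by
        rw [Ne, map_eq_zero]
        exact fun h => hy (Subtype.ext h)
      obtain ⟨n, hn1, hn2⟩ := hR.w_discrete _ hr hr0
      have e1 : algebraMap Qb (Om M) (y : Qb) * w⁻¹ ^ n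
          = algebraMap Qb (Om M) ((y : Qb) * c⁻¹ ^ n) := by
        rw [map_mul, map_pow, map_inv₀, hcw]
      rw [e1] at hn1 hn2
      rw [← map_inv₀] at hn2
      have h1 := ((iact_algebraMap_mem_Rc M A E).mp hn1).1
      have h2 := ((iact_algebraMap_mem_Rc M A E).mp hn2).1
      set u : ↥E := y * (⟨c, hcE⟩ : ↥E)⁻¹ ^ n with hu
      have hu_val : (u : Qb) = (y : Qb) * c⁻¹ ^ n := by
        rw [hu]; push_cast; rfl
      have hw0 : (⟨c, hcE⟩ : ↥E) ≠ 0 := fun h => hc0 (congrArg Subtype.val h)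
      have hu0 : u ≠ 0 := mul_ne_zero hy (pow_ne_zero n (inv_ne_zero hw0))
      have huO : u ∈ iactO A E := by
        rw [mem_iactO, hu_val]; exact h1
      have huO' : u⁻¹ ∈ iactO A E := by
        rw [mem_iactO]
        have : ((u⁻¹ : ↥E) : Qb) = ((y : Qb) * c⁻¹ ^ n)⁻¹ := by
          push_cast; rw [hu_val]
        rw [this]; exact h2
      have hv := iact_valuation_eq_one (iactO A E) hu0 huO huO'
      have hvw : (iactO A E).valuation ⟨c, hcE⟩ ≠ 0 := (Valuation.ne_zero_iff _).mpr hw0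
      refine ⟨n, ?_⟩
      rw [hu, map_mul, map_pow, map_inv₀] at hv
      rw [inv_pow] at hv
      exact (mul_inv_eq_one₀ (pow_ne_zero n hvw)).mp hv
    intro y hy
    rcases (iactO A E).mem_or_inv_mem y with h | h
    · obtain ⟨n, hn⟩ := key y hy h
      exact ⟨n, by rw [hn, zpow_natCast]⟩
    · obtain ⟨n, hn⟩ := key y⁻¹ (inv_ne_zero hy) h
      refine ⟨-(n : ℤ), ?_⟩
      rw [map_inv₀] at hn
      rw [zpow_neg, zpow_natCast, ← hn, inv_inv]

variable {M A E}

/-! ### the roof `Om M --iactPhi--> IActField ιK M <--iactFieldMap-- IActField (ιK ∘ σ) M` -/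

variable (ζ : (↥E)ˣ)
  (hζ : Units.map ((ιK.comp (iactSig E) : ↥E →+* ℂ) : ↥E →* ℂ) ζ = infRoot 1 M)

theorem iact_theta_C (c : ↥E) :
    iactFieldMap (iactSig E) ιK M (iactFC (ιK.comp (iactSig E)) M c)
      = iactPhi M (algebraMap Qb (Om M) (c : Qb)) := by
  rw [iactPhi_algebraMap, iactFieldMap_C]
  rfl

theorem iact_theta_Jd (d : ℕ) [NeZero d] (hd : d ∣ M) :
    iactFieldMap (iactSig E) ιK M (iactFJd ζ hζ d hd) = iactPhi M (jd M d hd) := by
  rw [iactPhi_jd, iactFieldMap_Jd]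
  rfl

theorem iact_theta_J :
    iactFieldMap (iactSig E) ιK M (iactFJ (ιK.comp (iactSig E)) M) = iactPhi M (jOm M) := by
  rw [iactPhi_jOm, iactFieldMap_J]

/-- The `Γ₀(M)`-field over `E` and the S18 field `Fc M E` have the same image. -/
theorem iact_F0_map :
    (iactF0 ζ hζ).map (iactFieldMap (iactSig E) ιK M) = (Fc M E).map (iactPhi M) := by
  have hM : M ≠ 0 := NeZero.ne M
  unfold iactF0 Fc
  rw [RingHom.map_field_closure, RingHom.map_field_closure]
  apply le_antisymm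
  · rw [Subfield.closure_le]
    rintro y ⟨x, hx | hx, rfl⟩
    · obtain ⟨c, rfl⟩ := hx
      apply Subfield.subset_closure
      exact ⟨algebraMap Qb (Om M) (c : Qb), Or.inl ((iact_algebraMap_mem_Ec M E).mpr c.2),
        (iact_theta_C c).symm⟩
    · obtain ⟨d, hd, rfl⟩ := hx
      have hd0 : NeZero d := ⟨fun h => hM (by rw [h] at hd; exact Nat.eq_zero_of_zero_dvd hd)⟩
      apply Subfield.subset_closure
      exact ⟨jd M d hd, Or.inr ⟨d, inferInstance, hd, rfl⟩, (iact_theta_Jd ζ hζ d hd).symm⟩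
  · rw [Subfield.closure_le]
    rintro y ⟨x, hx | hx, rfl⟩
    · obtain ⟨c, hc, rfl⟩ := hx
      apply Subfield.subset_closure
      exact ⟨iactFC (ιK.comp (iactSig E)) M ⟨c, hc⟩, Or.inl ⟨_, rfl⟩, iact_theta_C ⟨c, hc⟩⟩
    · obtain ⟨d, hd0, hd, rfl⟩ := hx
      apply Subfield.subset_closure
      exact ⟨iactFJd ζ hζ d hd, Or.inr ⟨d, hd, rfl⟩, iact_theta_Jd ζ hζ d hd⟩

/-- The rings of constants `A ∩ E` have the same image. -/
theorem iact_R_map :
    (((iactO A E).toSubring.map (iactFC (ιK.comp (iactSig E)) M)).map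
      (iactFieldMap (iactSig E) ιK M)) = (Rc M A E).map (iactPhi M) := by
  ext y
  constructor
  · rintro ⟨x, ⟨c, hc, rfl⟩, rfl⟩
    exact ⟨algebraMap Qb (Om M) (c : Qb), (iact_algebraMap_mem_Rc M A E).mpr ⟨hc, c.2⟩,
      (iact_theta_C c).symm⟩
  · rintro ⟨x, ⟨c, ⟨hcA, hcE⟩, rfl⟩, rfl⟩
    exact ⟨iactFC (ιK.comp (iactSig E)) M ⟨c, hcE⟩, ⟨⟨c, hcE⟩, hcA, rfl⟩, iact_theta_C ⟨c, hcE⟩⟩

/-- Every element of `Fc M E` has a (unique) preimage in `iactF0`. -/
theorem iact_exists_of_mem_Fc {f : Om M} (hf : f ∈ Fc M E) :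
    ∃ g ∈ iactF0 ζ hζ, iactFieldMap (iactSig E) ιK M g = iactPhi M f := by
  have h1 : iactPhi M f ∈ (Fc M E).map (iactPhi M) := ⟨f, hf, rfl⟩
  rw [← iact_F0_map ζ hζ] at h1
  obtain ⟨g, hg, hgf⟩ := h1
  exact ⟨g, hg, hgf⟩

/-- The coefficients of the expansion of an element over `E`, in terms of the `q`-series. -/
theorem iact_coeff_of_roof {f : Om M} {g : IActField (ιK.comp (iactSig E)) M}
    (hg : iactFieldMap (iactSig E) ιK M g = iactPhi M f) :
    coeffMap (iactSig E) (iactFieldExp (ιK.comp (iactSig E)) M g)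
      = qExpand Qb M (f : LaurentSeries Qb) := by
  rw [← iactFieldExp_map, hg, iactFieldExp_phi]

theorem iact_isInt_of_roof {f : Om M} {g : IActField (ιK.comp (iactSig E)) M}
    (hg : iactFieldMap (iactSig E) ιK M g = iactPhi M f) {U : LaurentSeries A}
    (hU : (f : LaurentSeries Qb) = coeffMap A.subtype U) :
    IsInt (iactO A E) (iactFieldExp (ιK.comp (iactSig E)) M g) := by
  intro k
  have h := congrArg (fun s : LaurentSeries Qb => s.coeff k) (iact_coeff_of_roof hg)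
  simp only [coeffMap_coeff] at h
  show iactSig E _ ∈ A
  rw [h, hU]
  by_cases hk : (M : ℤ) ∣ k
  · obtain ⟨m, rfl⟩ := hk
    rw [qExpand_coeff_mul, coeffMap_coeff]
    exact (U.coeff m).2
  · rw [qExpand_coeff_of_not_dvd M _ hk]
    exact A.zero_mem

theorem iact_isPrim_of_roof {f : Om M} {g : IActField (ιK.comp (iactSig E)) M}
    (hg : iactFieldMap (iactSig E) ιK M g = iactPhi M f) {U : LaurentSeries A}
    (hU : (f : LaurentSeries Qb) = coeffMap A.subtype U)
    (hne : coeffMap (IsLocalRing.residue A) U ≠ 0) :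
    IsPrim (iactO A E) (iactFieldExp (ιK.comp (iactSig E)) M g) := by
  refine ⟨iact_isInt_of_roof hg hU, ?_⟩
  have h1 : ∃ n : ℤ, IsLocalRing.residue A (U.coeff n) ≠ 0 := by
    by_contra hcon
    simp only [not_exists, not_not] at hcon
    apply hne
    ext n
    rw [coeffMap_coeff, hcon n, HahnSeries.coeff_zero]
  obtain ⟨n, hn⟩ := h1
  have hunit : IsUnit (U.coeff n) := by
    by_contra hnu
    exact hn ((IsLocalRing.residue_eq_zero_iff _).mpr ((IsLocalRing.mem_maximalIdeal _).mpr hnu))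
  refine ⟨(M : ℤ) * n, ?_⟩
  have h := congrArg (fun s : LaurentSeries Qb => s.coeff ((M : ℤ) * n)) (iact_coeff_of_roof hg)
  simp only [coeffMap_coeff] at h
  rw [hU, qExpand_coeff_mul, coeffMap_coeff] at h
  set c := (iactFieldExp (ιK.comp (iactSig E)) M g).coeff ((M : ℤ) * n) with hc
  have hcv : (c : Qb) = ((U.coeff n : A) : Qb) := h
  have hu0 : ((U.coeff n : A) : Qb) ≠ 0 := by
    intro h0
    have : U.coeff n = 0 := Subtype.ext h0
    rw [this] at hunit
    exact not_isUnit_zero hunit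
  have hc0 : c ≠ 0 := by
    intro h0
    rw [h0] at hcv
    exact hu0 hcv.symm
  have hcO : c ∈ iactO A E := by
    rw [mem_iactO, hcv]
    exact (U.coeff n).2
  have hcO' : c⁻¹ ∈ iactO A E := by
    rw [mem_iactO]
    have : ((c⁻¹ : ↥E) : Qb) = (((U.coeff n : A) : Qb))⁻¹ := by
      push_cast; rw [hcv]
    rw [this]
    obtain ⟨v, hv⟩ := hunit
    have hv1 : ((v⁻¹ : Aˣ) : A) * U.coeff n = 1 := by rw [← hv]; exact v.inv_mul
    have hv2 : (((v⁻¹ : Aˣ) : A) : Qb) * ((U.coeff n : A) : Qb) = 1 := by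
      have := congrArg (fun a : A => (a : Qb)) hv1
      simpa using this
    rw [← eq_inv_of_mul_eq_one_left hv2]
    exact ((v⁻¹ : Aˣ) : A).2
  exact iact_valuation_eq_one (iactO A E) hc0 hcO hcO'

include ζ hζ in
/-- **Easy inclusion**: the S18 Gauss ring of `Fc M E` lands in the Gauss ring of
`IActField` over `E`. -/
theorem iact_mem_gaussRing_of_mem_Vc {f : Om M} (hf : f ∈ Mod.H216.Vc M A E)
    {g : IActField (ιK.comp (iactSig E)) M}
    (hg : iactFieldMap (iactSig E) ιK M g = iactPhi M f) :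
    g ∈ gaussRing (iactO A E) (iactFieldExp (ιK.comp (iactSig E)) M) := by
  obtain ⟨-, U₁, U₂, ⟨-, f₁, hf₁, hf₁U⟩, ⟨-, f₂, hf₂, hf₂U⟩, hne, heq⟩ := hf
  have hmul : f * f₂ = f₁ := by
    apply Subtype.ext
    show (f : LaurentSeries Qb) * (f₂ : LaurentSeries Qb) = (f₁ : LaurentSeries Qb)
    rw [hf₁U, hf₂U]
    exact heq
  obtain ⟨g₁, -, hg₁⟩ := iact_exists_of_mem_Fc ζ hζ hf₁
  obtain ⟨g₂, -, hg₂⟩ := iact_exists_of_mem_Fc ζ hζ hf₂
  refine ⟨g₁, g₂, iact_isInt_of_roof hg₁ hf₁U, iact_isPrim_of_roof hg₂ hf₂U hne, ?_⟩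
  apply (iactFieldMap (iactSig E) ιK M).injective
  rw [map_mul, hg, hg₁, hg₂, ← map_mul, hmul]

/-! ### I-S28: the hypothesis `qep0` -/

/-- **I-S28 on `IActField`**: the hypothesis `hqep0` of `H856.iact_igusaData`, for every
uniformiser coming from the S18 field `G-R`. -/
theorem iact_qep0_of_partR {ℓ : ℕ} [Fact ℓ.Prime] (hℓM : ¬ ℓ ∣ M) (hA : A.LiesOverPrime ℓ)
    [FiniteDimensional ℚ E] {w : Om M} (hR : Mod.H216.PartR (Ec M E) (Rc M A E) w)
    {w₀ : ↥E} (hw : algebraMap Qb (Om M) (w₀ : Qb) = w) (hd : IsDiscrete (iactO A E) w₀) :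
    ∀ b ∈ chart (iactF0 ζ hζ)
        ((iactO A E).toSubring.map (iactFC (ιK.comp (iactSig E)) M))
        (iactFJ (ιK.comp (iactSig E)) M),
      b * (iactFC (ιK.comp (iactSig E)) M w₀)⁻¹
          ∈ gaussRing (iactO A E) (iactFieldExp (ιK.comp (iactSig E)) M) →
        b * (iactFC (ιK.comp (iactSig E)) M w₀)⁻¹
          ∈ chart (iactF0 ζ hζ)
            ((iactO A E).toSubring.map (iactFC (ιK.comp (iactSig E)) M))
            (iactFJ (ιK.comp (iactSig E)) M) := by
  have hb := H24.baseModel_j M A E hℓM hA hR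
  refine iact_qep_roof (iactPhi M) (iactFieldMap (iactSig E) ιK M) (iact_F0_map ζ hζ)
    iact_R_map iact_theta_J ?_ (hb.E_le_F (hb.R_le hb.w_mem)) hb.V_total hb.V_gen
    (fun f hf g hg => iact_mem_gaussRing_of_mem_Vc ζ hζ hf hg)
    (iact_gaussHyp (ι := ιK.comp (iactSig E)) (M := M) (iactO A E) hd).w_inv_notMem hb.qep_fin
  rw [iact_theta_C, hw]

/-- **I-S28 on `IActField`**, existential form: there is a uniformiser `w₀` of `A ∩ E` for which
the hypothesis `hqep0` of `H856.iact_igusaData` holds. -/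
theorem iact_qep0 {ℓ : ℕ} [Fact ℓ.Prime] (hℓM : ¬ ℓ ∣ M) (hA : A.LiesOverPrime ℓ)
    [FiniteDimensional ℚ E] :
    ∃ w₀ : ↥E, ∃ _ : IsDiscrete (iactO A E) w₀,
      ∀ b ∈ chart (iactF0 ζ hζ)
          ((iactO A E).toSubring.map (iactFC (ιK.comp (iactSig E)) M))
          (iactFJ (ιK.comp (iactSig E)) M),
        b * (iactFC (ιK.comp (iactSig E)) M w₀)⁻¹
            ∈ gaussRing (iactO A E) (iactFieldExp (ιK.comp (iactSig E)) M) →
          b * (iactFC (ιK.comp (iactSig E)) M w₀)⁻¹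
            ∈ chart (iactF0 ζ hζ)
              ((iactO A E).toSubring.map (iactFC (ιK.comp (iactSig E)) M))
              (iactFJ (ιK.comp (iactSig E)) M) := by
  obtain ⟨w, hR⟩ := H24.exists_partR M A E (Fact.out : ℓ.Prime) hA
  obtain ⟨w₀, hw, hd⟩ := iact_isDiscrete_of_partR M A E hR
  exact ⟨w₀, hd, iact_qep0_of_partR ζ hζ hℓM hA hR hw hd⟩

/-! ### the conclusions of `H856.IgusaConc`, without hypotheses -/

/-- **IGUSA1, closed form**: there is a uniformiser `w₀` of `A ∩ E` such that the concrete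
`IgusaData` on `IActField` over `E` holds. -/
theorem iact_igusaData_closed {ℓ : ℕ} [Fact ℓ.Prime] (hℓM : ¬ ℓ ∣ M) (hA : A.LiesOverPrime ℓ)
    [FiniteDimensional ℚ E] :
    ∃ w₀ : ↥E, ∃ hd : IsDiscrete (iactO A E) w₀,
      IgusaData (iactFC (ιK.comp (iactSig E)) M).fieldRange (iactF0 ζ hζ)
        (iactBd (ι := ιK.comp (iactSig E)) (M := M) (iactO A E) hd)
        ((iactO A E).toSubring.map (iactFC (ιK.comp (iactSig E)) M))
        (gaussRing (iactO A E) (iactFieldExp (ιK.comp (iactSig E)) M))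
        (iactFC (ιK.comp (iactSig E)) M w₀) (iactFJ (ιK.comp (iactSig E)) M)
        (iactG (ιK.comp (iactSig E)) M) (iactB (ιK.comp (iactSig E)) M)
        (iactT (ιK.comp (iactSig E)) M) := by
  obtain ⟨w₀, hd, hq⟩ := iact_qep0 ζ hζ hℓM hA
  exact ⟨w₀, hd, iact_igusaData (iactO A E) ζ hζ hd hq⟩

include ζ hζ in
/-- **IGUSA1, stability, closed form**: the Gauss ring of `IActField` over `E` is stable under
`SL₂(ℤ)` on the elements with bounded denominators. -/
theorem iact_stable_closed {ℓ : ℕ} [Fact ℓ.Prime] (hℓM : ¬ ℓ ∣ M) (hA : A.LiesOverPrime ℓ)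
    [FiniteDimensional ℚ E] :
    ∃ w₀ : ↥E, ∃ hd : IsDiscrete (iactO A E) w₀,
      ∀ (γ : SL(2, ℤ)) (f : IActField (ιK.comp (iactSig E)) M),
        f ∈ iactBd (ι := ιK.comp (iactSig E)) (M := M) (iactO A E) hd →
        f ∈ gaussRing (iactO A E) (iactFieldExp (ιK.comp (iactSig E)) M) →
        γ • f ∈ gaussRing (iactO A E) (iactFieldExp (ιK.comp (iactSig E)) M) := by
  obtain ⟨w₀, hd, hq⟩ := iact_qep0 ζ hζ hℓM hA
  exact ⟨w₀, hd, fun γ f hf hfV => iact_stable (iactO A E) ζ hζ hd hq γ hf hfV⟩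

/-! ### the root of unity -/

/-- If `E ∋ ζ_M` then `↥E` carries the root of unity required by `H856.IgusaConc`. -/
theorem iact_exists_zeta_of_mem (M : ℕ) [NeZero M] (E : IntermediateField ℚ Qb)
    (h : ((iactZeta M : Qbˣ) : Qb) ∈ E) :
    ∃ ζ : (↥E)ˣ,
      Units.map ((ιK.comp (iactSig E) : ↥E →+* ℂ) : ↥E →* ℂ) ζ = infRoot 1 M := by
  have h0 : (⟨((iactZeta M : Qbˣ) : Qb), h⟩ : ↥E) ≠ 0 := by
    intro h1
    exact (iactZeta M).ne_zero (congrArg Subtype.val h1)
  refine ⟨Units.mk0 _ h0, ?_⟩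
  rw [← iactZeta_spec M]
  exact Units.ext rfl

/-- Every finite set of algebraic numbers lies in a number field containing `ζ_M`. -/
theorem iact_exists_field (M : ℕ) [NeZero M] (T : Finset Qb) :
    ∃ E : IntermediateField ℚ Qb, FiniteDimensional ℚ E ∧ (∀ a ∈ T, a ∈ E) ∧
      ((iactZeta M : Qbˣ) : Qb) ∈ E := by
  classical
  refine ⟨IntermediateField.adjoin ℚ ((insert ((iactZeta M : Qbˣ) : Qb) T : Finset Qb) : Set Qb),
    ?_, fun a ha => ?_, ?_⟩
  · exact IntermediateField.finiteDimensional_adjoin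
      (fun x _ => (AlgebraicClosure.isAlgebraic ℚ).isAlgebraic x |>.isIntegral)
  · exact IntermediateField.subset_adjoin ℚ _ (by simp [ha])
  · exact IntermediateField.subset_adjoin ℚ _ (by simp)

end Fermat.Agent.S48.H828
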