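import Fermat.Agent.S48.Red1.Asm
import Fermat.Agent.S48.H668.F1Bd
import Fermat.Agent.S48.H828.IActQep
import Fermat.Agent.S48.H828.IActInf

/-!
# S48 / Tower A1 / A1-RED (helper828), part 9b: the leaves `qep_fin`, `qep_inf` of
`Red1.TopLeaves` (node IGUSA1 transported to `Ω' = Q̄ · F₀`)

`E` a number field in `Q̄` containing `ζ_M`, `A` a valuation subring of `Q̄` above `ℓ ∤ M`,
`w₀` a uniformiser of `A ∩ E` (`H248.IsUnifG`).  Roof

  `OmG F₀ --baseChangeEmb (Q̄)--> IActField ιK M <--iactFieldMap-- IActField (ιK ∘ σ) M`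

* `iact_qep_pull`        : the `q`-expansion principle is pulled back along a roof;
* `iact_exists_FcT_of_mem`, `iact_exists_lbc_of_mem_FcT` : `E · F₀ ⊆ Q̄((q))` is the image of
  `laurentBaseChange ↥E F₀` under `coeffMap σ`;
* `iact_FcT_map`, `iact_RcG_map` : compatibility of the fields and the rings of constants;
* `iact_mem_gaussRing_of_mem_VcT` : `VcT F₀ A E` lands in `gaussRing (A ∩ E)`;
* `iact_partR_of_isUnifG` : the S18 field `G-R` for ANY uniformiser of `A ∩ E`;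
* `iact_top_qep`         : `qep_fin ∧ qep_inf` of `Red1.TopLeaves F₀ A E w₀ j`, for every `F₀`
  with avatars in the full-level field whose translates have bounded denominators;
* `iact_topLeaves_qep_F1`: the instance `F₀ = F1 M` (**fields `qep_fin`, `qep_inf` of
  `Red1.TopLeaves (F1 M) A E w₀ j`, VERBATIM**).
-/

set_option autoImplicit false
set_option linter.unusedSectionVars false

noncomputable section

open ModularCurve HahnSeries UpperHalfPlane AlgebraicCurve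
open scoped MatrixGroups Manifold

namespace Fermat.Agent.S48.H828

open Fermat.Agent.S24 Fermat.Agent.S24.H997 Fermat.Agent.S24.H624 Fermat.Agent.S20.L1
open Fermat.Agent.S18 Fermat.Agent.S18.Mod Fermat.Agent.S18.Alg Fermat.Agent.S48.H856
open Fermat.Agent.S48.Red1 Fermat.Agent.S48.H648 Fermat.Agent.S48.F1

/-! ### pull-back of the `q`-expansion principle along a roof -/

section Pull

variable {Ω₁ Ω₂ Ω₃ : Type*} [Field Ω₁] [Field Ω₂] [Field Ω₃]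
  (φ : Ω₁ →+* Ω₂) (θ : Ω₃ →+* Ω₂)
  {F₁ : Subfield Ω₁} {R₁ V₁ : Subring Ω₁} {w₁ x₁ : Ω₁}
  {F₃ : Subfield Ω₃} {R₃ V₃ : Subring Ω₃} {w₃ x₃ : Ω₃}

theorem iact_qep_pull (hF : F₁.map φ = F₃.map θ) (hR : R₁.map φ = R₃.map θ)
    (hx : φ x₁ = θ x₃) (hw : φ w₁ = θ w₃)
    (hV : ∀ f ∈ V₁, ∀ g : Ω₃, θ g = φ f → g ∈ V₃)
    (hq : ∀ b ∈ chart F₃ R₃ x₃, b * w₃⁻¹ ∈ V₃ → b * w₃⁻¹ ∈ chart F₃ R₃ x₃) :
    ∀ b ∈ chart F₁ R₁ x₁, b * w₁⁻¹ ∈ V₁ → b * w₁⁻¹ ∈ chart F₁ R₁ x₁ := by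
  intro b hb hbV
  have h1 : φ b ∈ chart (F₃.map θ) (R₃.map θ) (θ x₃) := by
    rw [← hF, ← hR, ← hx]
    exact (iact_map_mem_chart_iff φ F₁ R₁ x₁ b).mpr hb
  obtain ⟨b₃, hb₃, hbb⟩ := iact_exists_of_mem_chart_map θ F₃ R₃ x₃ h1
  have h2 : θ (b₃ * w₃⁻¹) = φ (b * w₁⁻¹) := by
    rw [map_mul, map_mul, map_inv₀, map_inv₀, hw, hbb]
  have h3 : b₃ * w₃⁻¹ ∈ V₃ := hV _ hbV _ h2
  have h4 := hq b₃ hb₃ h3
  have h5 : φ (b * w₁⁻¹) ∈ chart (F₁.map φ) (R₁.map φ) (φ x₁) := by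
    rw [← h2, hF, hR, hx]
    exact (iact_map_mem_chart_iff θ F₃ R₃ x₃ _).mpr h4
  exact (iact_map_mem_chart_iff φ F₁ R₁ x₁ _).mp h5

end Pull

/-! ### integrality of expansions over `E` read off over `Q̄` -/

section Coeff

variable {M : ℕ} [NeZero M] {A : ValuationSubring Qb} {E : IntermediateField ℚ Qb}

theorem iact_isInt_of_coeffMap {s : LaurentSeries ↥E} {U : LaurentSeries A}
    (h : coeffMap (iactSig E) s = qExpand Qb M (coeffMap A.subtype U)) :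
    H856.IsInt (iactO A E) s := by
  intro k
  have hk := congrArg (fun t : LaurentSeries Qb => t.coeff k) h
  simp only [coeffMap_coeff] at hk
  show iactSig E _ ∈ A
  rw [hk]
  by_cases hd : (M : ℤ) ∣ k
  · obtain ⟨m, rfl⟩ := hd
    rw [qExpand_coeff_mul, coeffMap_coeff]
    exact (U.coeff m).2
  · rw [qExpand_coeff_of_not_dvd M _ hd]
    exact A.zero_mem

theorem iact_isPrim_of_coeffMap {s : LaurentSeries ↥E} {U : LaurentSeries A}
    (h : coeffMap (iactSig E) s = qExpand Qb M (coeffMap A.subtype U))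
    (hne : coeffMap (IsLocalRing.residue A) U ≠ 0) :
    H856.IsPrim (iactO A E) s := by
  refine ⟨iact_isInt_of_coeffMap h, ?_⟩
  have h1 : ∃ n : ℤ, IsLocalRing.residue A (U.coeff n) ≠ 0 := by
    by_contra hcon
    simp only [not_exists, not_not] at hcon
    apply hne
    ext n
    rw [coeffMap_coeff, hcon n, HahnSeries.coeff_zero]
  obtain ⟨n, hn⟩ := h1
  have hunit : IsUnit (U.coeff n) := by
    by_contra hnu
    exact hn ((IsLocalRing.residue_eq_zero_iff _).mpr ((IsLocalRing.mem_maximalIdeal _).mpr hnu))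
  refine ⟨(M : ℤ) * n, ?_⟩
  have hk := congrArg (fun t : LaurentSeries Qb => t.coeff ((M : ℤ) * n)) h
  simp only [coeffMap_coeff] at hk
  rw [qExpand_coeff_mul, coeffMap_coeff] at hk
  set c := s.coeff ((M : ℤ) * n) with hc
  have hcv : (c : Qb) = ((U.coeff n : A) : Qb) := hk
  have hu0 : ((U.coeff n : A) : Qb) ≠ 0 := by
    intro h0
    have : U.coeff n = 0 := Subtype.ext h0
    rw [this] at hunit
    exact not_isUnit_zero hunit
  have hc0 : c ≠ 0 := by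
    intro h0
    rw [h0] at hcv
    exact hu0 hcv.symm
  have hcO : c ∈ iactO A E := by
    rw [mem_iactO, hcv]
    exact (U.coeff n).2
  have hcO' : c⁻¹ ∈ iactO A E := by
    rw [mem_iactO]
    have : ((c⁻¹ : ↥E) : Qb) = (((U.coeff n : A) : Qb))⁻¹ := by
      push_cast; rw [hcv]
    rw [this]
    obtain ⟨v, hv⟩ := hunit
    have hv1 : ((v⁻¹ : Aˣ) : A) * U.coeff n = 1 := by rw [← hv]; exact v.inv_mul
    have hv2 : (((v⁻¹ : Aˣ) : A) : Qb) * ((U.coeff n : A) : Qb) = 1 := by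
      have := congrArg (fun a : A => (a : Qb)) hv1
      simpa using this
    rw [← eq_inv_of_mul_eq_one_left hv2]
    exact ((v⁻¹ : Aˣ) : A).2
  exact iact_valuation_eq_one (iactO A E) hc0 hcO hcO'

end Coeff

/-! ### the S18 field `G-R` for any uniformiser -/

section Unif

variable (M : ℕ) [NeZero M] (A : ValuationSubring Qb) (E : IntermediateField ℚ Qb)

theorem iact_partR_of_isUnifG {ℓ : ℕ} (hℓ : ℓ.Prime) (hA : A.LiesOverPrime ℓ)
    [FiniteDimensional ℚ E] {w₀ : Qb} (hunif : H248.IsUnifG A E.toSubfield w₀) :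
    Mod.H216.PartR (Ec M E) (Rc M A E) (algebraMap Qb (Om M) w₀) := by
  obtain ⟨w', hR'⟩ := H24.exists_partR M A E hℓ hA
  have hmem : ∀ c : Qb, algebraMap Qb (Om M) c ∈ Rc M A E ↔ c ∈ A ∧ c ∈ E :=
    fun c => iact_algebraMap_mem_Rc M A E
  have hgen : ∀ r ∈ Rc M A E, r⁻¹ ∉ Rc M A E → r * (algebraMap Qb (Om M) w₀)⁻¹ ∈ Rc M A E := by
    rintro _ ⟨c, ⟨hcA, hcE⟩, rfl⟩ hrinv
    have h1 : c⁻¹ ∉ A := fun h => hrinv (by
      rw [← map_inv₀]
      exact (hmem _).mpr ⟨h, E.inv_mem hcE⟩)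
    have h2 := hunif.gen c hcA hcE h1
    rw [← map_inv₀, ← map_mul]
    exact (hmem _).mpr ⟨h2, E.mul_mem hcE (E.inv_mem hunif.mem_E)⟩
  have hw0 : algebraMap Qb (Om M) w₀ ≠ 0 := (map_ne_zero _).mpr hunif.ne_zero
  have hu : w' * (algebraMap Qb (Om M) w₀)⁻¹ ∈ Rc M A E :=
    hgen w' hR'.w_mem hR'.w_inv_not_mem
  refine ⟨hR'.R_le, hR'.R_total, (hmem _).mpr ⟨hunif.mem_A, hunif.mem_E⟩, hw0, ?_, hgen, ?_, ?_⟩
  · intro h
    rw [← map_inv₀] at h
    exact hunif.inv_not_mem ((hmem _).mp h).1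
  · rintro _ ⟨c, ⟨hcA, hcE⟩, rfl⟩ hr0
    have hc0 : c ≠ 0 := fun h => hr0 (by rw [h, map_zero])
    obtain ⟨n, h1, h2⟩ := hunif.discrete c hcA hcE hc0
    have hE1 : c * w₀⁻¹ ^ n ∈ E := E.mul_mem hcE (pow_mem (E.inv_mem hunif.mem_E) n)
    refine ⟨n, ?_, ?_⟩
    · rw [← map_inv₀, ← map_pow, ← map_mul]
      exact (hmem _).mpr ⟨h1, hE1⟩
    · rw [← map_inv₀, ← map_pow, ← map_mul, ← map_inv₀]
      exact (hmem _).mpr ⟨h2, E.inv_mem hE1⟩
  · obtain ⟨p, hp, hpw, hall⟩ := hR'.residue_perfect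
    refine ⟨p, hp, ?_, fun r hr => ?_⟩
    · have e : (p : Om M) * (algebraMap Qb (Om M) w₀)⁻¹
          = ((p : Om M) * w'⁻¹) * (w' * (algebraMap Qb (Om M) w₀)⁻¹) := by
        field_simp [hR'.w_ne_zero]
      rw [e]
      exact (Rc M A E).mul_mem hpw hu
    · obtain ⟨s, hs, hrs⟩ := hall r hr
      refine ⟨s, hs, ?_⟩
      have e : (r - s ^ p) * (algebraMap Qb (Om M) w₀)⁻¹
          = ((r - s ^ p) * w'⁻¹) * (w' * (algebraMap Qb (Om M) w₀)⁻¹) := by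
        field_simp [hR'.w_ne_zero]
      rw [e]
      exact (Rc M A E).mul_mem hrs hu

end Unif

/-! ### the roof for `Ω' = Q̄ · F₀` -/

section Roof

variable {M : ℕ} [NeZero M] {A : ValuationSubring Qb} {E : IntermediateField ℚ Qb}
  {F₀ : IntermediateField ℚ (LaurentSeries ℚ)}

theorem iact_coeffMap_sig_coeffEmb (x : LaurentSeries ℚ) :
    coeffMap (iactSig E) (coeffEmb ↥E x) = coeffEmb Qb x := by
  ext k
  rw [coeffMap_coeff, coeffEmb_coeff, coeffEmb_coeff]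
  exact (IsScalarTower.algebraMap_apply ℚ ↥E Qb (x.coeff k)).symm

theorem iact_coeffMap_sig_algebraMap (c : ↥E) :
    coeffMap (iactSig E) (algebraMap ↥E (LaurentSeries ↥E) c)
      = algebraMap Qb (LaurentSeries Qb) (c : Qb) := by
  rw [algebraMap_laurentSeries_eq_single, algebraMap_laurentSeries_eq_single, coeffMap_single]
  rfl

/-- Avatars over `E` give avatars over `Q̄`. -/
theorem iact_avatar_Qb
    (hE : ∀ x ∈ F₀, coeffEmb ↥E x ∈ avatarField (ιK.comp (iactSig E)) M) :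
    ∀ x ∈ F₀, coeffEmb Qb x ∈ avatarField ιK M := by
  intro x hx
  obtain ⟨y, hy⟩ := mem_avatarField.mp (hE x hx)
  refine mem_avatarField.mpr ⟨iactFieldMap (iactSig E) ιK M y, ?_⟩
  rw [iactFieldExp_map, hy, coeffMap_qExpand, iact_coeffMap_sig_coeffEmb]

variable (hE : ∀ x ∈ F₀, coeffEmb ↥E x ∈ avatarField (ιK.comp (iactSig E)) M)

/-- The two bridges are compatible with `coeffMap σ`. -/
theorem iact_theta_baseChange (h : ↥(laurentBaseChange ↥E F₀)) (g : OmG F₀)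
    (hgh : (g : LaurentSeries Qb) = coeffMap (iactSig E) (h : LaurentSeries ↥E)) :
    iactFieldMap (iactSig E) ιK M (baseChangeEmb (ιK.comp (iactSig E)) M F₀ hE h)
      = baseChangeEmb ιK M F₀ (iact_avatar_Qb hE) g := by
  symm
  rw [baseChangeEmb_eq_iff, iactFieldExp_map, iactFieldExp_baseChangeEmb, hgh, coeffMap_qExpand]

/-- `laurentBaseChange ↥E F₀` maps into `E · F₀ ⊆ Q̄((q))` under `coeffMap σ`. -/
theorem iact_exists_FcT_of_mem (h : LaurentSeries ↥E) (hh : h ∈ laurentBaseChange ↥E F₀) :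
    ∃ g : OmG F₀, g ∈ FcT F₀ E.toSubfield ∧
      (g : LaurentSeries Qb) = coeffMap (iactSig E) h := by
  unfold laurentBaseChange at hh
  induction hh using IntermediateField.adjoin_induction with
  | mem x hx =>
    obtain ⟨z, hz, rfl⟩ := hx
    exact ⟨embG F₀ ⟨z, hz⟩, embG_mem_FcT _ _, by rw [coe_embG, iact_coeffMap_sig_coeffEmb]⟩
  | algebraMap c =>
    refine ⟨cstG F₀ (c : Qb), cstG_mem_FcT c.2, ?_⟩
    rw [iact_coeffMap_sig_algebraMap]
    rfl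
  | add x y _ _ hx hy =>
    obtain ⟨g₁, hg₁, e₁⟩ := hx
    obtain ⟨g₂, hg₂, e₂⟩ := hy
    refine ⟨g₁ + g₂, add_mem hg₁ hg₂, ?_⟩
    rw [map_add, ← e₁, ← e₂]
    rfl
  | inv x _ hx =>
    obtain ⟨g₁, hg₁, e₁⟩ := hx
    refine ⟨g₁⁻¹, inv_mem hg₁, ?_⟩
    rw [map_inv₀, ← e₁]
    rfl
  | mul x y _ _ hx hy =>
    obtain ⟨g₁, hg₁, e₁⟩ := hx
    obtain ⟨g₂, hg₂, e₂⟩ := hy
    refine ⟨g₁ * g₂, mul_mem hg₁ hg₂, ?_⟩
    rw [map_mul, ← e₁, ← e₂]
    rfl

/-- `E · F₀ ⊆ Q̄((q))` is in the image of `laurentBaseChange ↥E F₀` under `coeffMap σ`. -/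
theorem iact_exists_lbc_of_mem_FcT (g : OmG F₀) (hg : g ∈ FcT F₀ E.toSubfield) :
    ∃ h : ↥(laurentBaseChange ↥E F₀),
      (g : LaurentSeries Qb) = coeffMap (iactSig E) (h : LaurentSeries ↥E) := by
  unfold FcT at hg
  induction hg using Subfield.closure_induction with
  | mem x hx =>
    rcases hx with hx | ⟨z, rfl⟩
    · obtain ⟨c, hc, rfl⟩ := (H248.mem_EcG_iff _).mp hx
      refine ⟨algebraMap ↥E ↥(laurentBaseChange ↥E F₀) ⟨c, hc⟩, ?_⟩
      have : ((algebraMap ↥E ↥(laurentBaseChange ↥E F₀) ⟨c, hc⟩ :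
          ↥(laurentBaseChange ↥E F₀)) : LaurentSeries ↥E)
          = algebraMap ↥E (LaurentSeries ↥E) ⟨c, hc⟩ := rfl
      rw [this, iact_coeffMap_sig_algebraMap]
      rfl
    · exact ⟨⟨coeffEmb ↥E (z : LaurentSeries ℚ), coeffEmb_mem_laurentBaseChange ↥E z.2⟩, by
        rw [coe_embG, iact_coeffMap_sig_coeffEmb]⟩
  | one => exact ⟨1, by simp⟩
  | add x y _ _ hx hy =>
    obtain ⟨h₁, e₁⟩ := hx
    obtain ⟨h₂, e₂⟩ := hy
    refine ⟨h₁ + h₂, ?_⟩
    show (x : LaurentSeries Qb) + (y : LaurentSeries Qb) = _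
    rw [e₁, e₂, ← map_add]
    rfl
  | neg x _ hx =>
    obtain ⟨h₁, e₁⟩ := hx
    refine ⟨-h₁, ?_⟩
    show -(x : LaurentSeries Qb) = _
    rw [e₁, ← map_neg]
    rfl
  | inv x _ hx =>
    obtain ⟨h₁, e₁⟩ := hx
    refine ⟨h₁⁻¹, ?_⟩
    show (x : LaurentSeries Qb)⁻¹ = _
    rw [e₁, ← map_inv₀]
    rfl
  | mul x y _ _ hx hy =>
    obtain ⟨h₁, e₁⟩ := hx
    obtain ⟨h₂, e₂⟩ := hy
    refine ⟨h₁ * h₂, ?_⟩
    show (x : LaurentSeries Qb) * (y : LaurentSeries Qb) = _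
    rw [e₁, e₂, ← map_mul]
    rfl

/-- The field `E · F₀` and the image of the bridge over `E` have the same image. -/
theorem iact_FcT_map :
    (FcT F₀ E.toSubfield).map (baseChangeEmb ιK M F₀ (iact_avatar_Qb hE))
      = ((baseChangeEmb (ιK.comp (iactSig E)) M F₀ hE).fieldRange).map
          (iactFieldMap (iactSig E) ιK M) := by
  ext y
  constructor
  · rintro ⟨g, hg, rfl⟩
    obtain ⟨h, e⟩ := iact_exists_lbc_of_mem_FcT g hg
    exact ⟨_, ⟨h, rfl⟩, iact_theta_baseChange hE h g e⟩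
  · rintro ⟨_, ⟨h, rfl⟩, rfl⟩
    obtain ⟨g, hg, e⟩ := iact_exists_FcT_of_mem (h : LaurentSeries ↥E) h.2
    exact ⟨g, hg, (iact_theta_baseChange hE h g e).symm⟩

theorem iact_baseChange_cstG (c : Qb) :
    baseChangeEmb ιK M F₀ (iact_avatar_Qb hE) (cstG F₀ c) = iactFC ιK M c :=
  baseChangeEmb_algebraMap F₀ (iact_avatar_Qb hE) c

/-- The rings of constants `A ∩ E` have the same image. -/
theorem iact_RcG_map :
    (H248.RcG A E.toSubfield (cstG F₀)).map (baseChangeEmb ιK M F₀ (iact_avatar_Qb hE))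
      = (((iactO A E).toSubring.map (iactFC (ιK.comp (iactSig E)) M)).map
          (iactFieldMap (iactSig E) ιK M)) := by
  ext y
  constructor
  · rintro ⟨r, hr, rfl⟩
    obtain ⟨c, hcA, hcE, rfl⟩ := (H248.mem_RcG_iff _).mp hr
    refine ⟨iactFC (ιK.comp (iactSig E)) M ⟨c, hcE⟩, ⟨⟨c, hcE⟩, hcA, rfl⟩, ?_⟩
    rw [iactFieldMap_C, iact_baseChange_cstG hE]
    rfl
  · rintro ⟨_, ⟨c, hc, rfl⟩, rfl⟩
    refine ⟨cstG F₀ (c : Qb), (H248.mem_RcG_iff _).mpr ⟨(c : Qb), hc, c.2, rfl⟩, ?_⟩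
    rw [iactFieldMap_C, iact_baseChange_cstG hE]
    rfl

theorem iact_baseChange_j (hle : modularFunctionFieldFull M ≤ F₀) :
    baseChangeEmb ιK M F₀ (iact_avatar_Qb hE) (iotaG M F₀ hle (jOm M))
      = iactFieldMap (iactSig E) ιK M (iactFJ (ιK.comp (iactSig E)) M) := by
  rw [iactFieldMap_J, baseChangeEmb_eq_iff, iactFieldExp_J, coe_iotaG]
  show iactJX Qb M = qExpand Qb M (coeffEmb Qb (qExpand ℚ 1 jq))
  rw [qExpand_one_apply]
  rfl

/-- **Easy inclusion**: the Gauss ring `VcT F₀ A E` lands in the Gauss ring of `IActField`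
over `E`. -/
theorem iact_mem_gaussRing_of_mem_VcT {g : OmG F₀} (hg : g ∈ VcT F₀ A E.toSubfield)
    {f : IActField (ιK.comp (iactSig E)) M}
    (hf : iactFieldMap (iactSig E) ιK M f = baseChangeEmb ιK M F₀ (iact_avatar_Qb hE) g) :
    f ∈ gaussRing (iactO A E) (iactFieldExp (ιK.comp (iactSig E)) M) := by
  obtain ⟨-, U₁, U₂, ⟨-, g₁, hg₁, e₁⟩, ⟨-, g₂, hg₂, e₂⟩, hne, heq⟩ := hg
  have hmul : g * g₂ = g₁ := by
    apply Subtype.ext
    show (g : LaurentSeries Qb) * (g₂ : LaurentSeries Qb) = (g₁ : LaurentSeries Qb)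
    have e₁' : (g₁ : LaurentSeries Qb) = coeffMap A.subtype U₁ := e₁
    have e₂' : (g₂ : LaurentSeries Qb) = coeffMap A.subtype U₂ := e₂
    rw [e₁', e₂']
    exact heq
  obtain ⟨h₁, k₁⟩ := iact_exists_lbc_of_mem_FcT g₁ hg₁
  obtain ⟨h₂, k₂⟩ := iact_exists_lbc_of_mem_FcT g₂ hg₂
  have t₁ := iact_theta_baseChange hE h₁ g₁ k₁
  have t₂ := iact_theta_baseChange hE h₂ g₂ k₂
  have c₁ : coeffMap (iactSig E)
      (iactFieldExp (ιK.comp (iactSig E)) M (baseChangeEmb (ιK.comp (iactSig E)) M F₀ hE h₁))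
      = qExpand Qb M (coeffMap A.subtype U₁) := by
    rw [iactFieldExp_baseChangeEmb, coeffMap_qExpand, ← k₁]
    exact congrArg _ e₁
  have c₂ : coeffMap (iactSig E)
      (iactFieldExp (ιK.comp (iactSig E)) M (baseChangeEmb (ιK.comp (iactSig E)) M F₀ hE h₂))
      = qExpand Qb M (coeffMap A.subtype U₂) := by
    rw [iactFieldExp_baseChangeEmb, coeffMap_qExpand, ← k₂]
    exact congrArg _ e₂
  refine ⟨_, _, iact_isInt_of_coeffMap c₁, iact_isPrim_of_coeffMap c₂ hne, ?_⟩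
  apply (iactFieldMap (iactSig E) ιK M).injective
  rw [map_mul, hf, t₁, t₂, ← map_mul, hmul]

end Roof

/-! ### the leaves `qep_fin`, `qep_inf` -/

section Main

variable {M : ℕ} [NeZero M] {A : ValuationSubring Qb} {E : IntermediateField ℚ Qb}
  {F₀ : IntermediateField ℚ (LaurentSeries ℚ)}

/-- **The leaves `qep_fin`, `qep_inf` of `Red1.TopLeaves`**, for every `F₀` with avatars in the
full-level field (over `E`) all of whose translates have bounded denominators. -/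
theorem iact_top_qep (hle : modularFunctionFieldFull M ≤ F₀) (ζ : (↥E)ˣ)
    (hζ : Units.map ((ιK.comp (iactSig E) : ↥E →+* ℂ) : ↥E →* ℂ) ζ = infRoot 1 M)
    (hE : ∀ x ∈ F₀, coeffEmb ↥E x ∈ avatarField (ιK.comp (iactSig E)) M)
    (hbd : ∀ (w₁ : ↥E) (hd : IsDiscrete (iactO A E) w₁),
      (baseChangeEmb (ιK.comp (iactSig E)) M F₀ hE).fieldRange
        ≤ iactBd (ι := ιK.comp (iactSig E)) (M := M) (iactO A E) hd)
    {ℓ : ℕ} [Fact ℓ.Prime] (hℓM : ¬ ℓ ∣ M) (hA : A.LiesOverPrime ℓ) [FiniteDimensional ℚ E]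
    {w₀ : Qb} (hunif : H248.IsUnifG A E.toSubfield w₀) :
    (∀ b ∈ chart (FcT F₀ E.toSubfield) (H248.RcG A E.toSubfield (cstG F₀))
        (iotaG M F₀ hle (jOm M)),
      b * (cstG F₀ w₀)⁻¹ ∈ VcT F₀ A E.toSubfield →
        b * (cstG F₀ w₀)⁻¹ ∈ chart (FcT F₀ E.toSubfield) (H248.RcG A E.toSubfield (cstG F₀))
          (iotaG M F₀ hle (jOm M))) ∧
    (∀ b ∈ chart (FcT F₀ E.toSubfield) (H248.RcG A E.toSubfield (cstG F₀))
        (iotaG M F₀ hle (jOm M))⁻¹,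
      b * (cstG F₀ w₀)⁻¹ ∈ VcT F₀ A E.toSubfield →
        b * (cstG F₀ w₀)⁻¹ ∈ chart (FcT F₀ E.toSubfield) (H248.RcG A E.toSubfield (cstG F₀))
          (iotaG M F₀ hle (jOm M))⁻¹) := by
  have hR := iact_partR_of_isUnifG M A E (Fact.out : ℓ.Prime) hA hunif
  obtain ⟨w₁, hw₁, hd⟩ := iact_isDiscrete_of_partR M A E hR
  have hw₁' : (w₁ : Qb) = w₀ := iact_algebraMap_injective M hw₁
  have hq0 := iact_qep0_of_partR ζ hζ hℓM hA hR hw₁ hd
  have hI := iact_igusaData (iactO A E) ζ hζ hd hq0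
  have hFc := hbd w₁ hd
  have hw₃ : iactFC (ιK.comp (iactSig E)) M w₁
      ∈ (baseChangeEmb (ιK.comp (iactSig E)) M F₀ hE).fieldRange :=
    ⟨algebraMap ↥E ↥(laurentBaseChange ↥E F₀) w₁, baseChangeEmb_algebraMap F₀ hE w₁⟩
  have hw : baseChangeEmb ιK M F₀ (iact_avatar_Qb hE) (cstG F₀ w₀)
      = iactFieldMap (iactSig E) ιK M (iactFC (ιK.comp (iactSig E)) M w₁) := by
    rw [iactFieldMap_C, iact_baseChange_cstG hE, ← hw₁']
    rfl
  have hx := iact_baseChange_j hE hle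
  constructor
  · exact iact_qep_pull (baseChangeEmb ιK M F₀ (iact_avatar_Qb hE))
      (iactFieldMap (iactSig E) ιK M) (iact_FcT_map hE) (iact_RcG_map hE) hx hw
      (fun g hg f hf => iact_mem_gaussRing_of_mem_VcT hE hg hf)
      (hI.qep_fin _ hFc hw₃)
  · have hx' : baseChangeEmb ιK M F₀ (iact_avatar_Qb hE) (iotaG M F₀ hle (jOm M))⁻¹
        = iactFieldMap (iactSig E) ιK M (iactFJ (ιK.comp (iactSig E)) M)⁻¹ := by
      rw [map_inv₀, map_inv₀, hx]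
    exact iact_qep_pull (baseChangeEmb ιK M F₀ (iact_avatar_Qb hE))
      (iactFieldMap (iactSig E) ιK M) (iact_FcT_map hE) (iact_RcG_map hE) hx' hw
      (fun g hg f hf => iact_mem_gaussRing_of_mem_VcT hE hg hf)
      (iact_igusa_qep_inf hI _ hFc hw₃)

/-- **Fields `qep_fin`, `qep_inf` of `Red1.TopLeaves (F1 M) A E w₀ j`, VERBATIM**, for every
number field `E ∋ ζ_M`, every `A` above `ℓ ∤ M` and every uniformiser `w₀` of `A ∩ E`. -/
theorem iact_topLeaves_qep_F1 {ℓ : ℕ} [Fact ℓ.Prime] (hℓM : ¬ ℓ ∣ M) (hA : A.LiesOverPrime ℓ)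
    [FiniteDimensional ℚ E] (hζE : ((iactZeta M : Qbˣ) : Qb) ∈ E)
    {w₀ : Qb} (hunif : H248.IsUnifG A E.toSubfield w₀)
    (hle : modularFunctionFieldFull M ≤ F1 M) :
    (∀ b ∈ chart (FcT (F1 M) E.toSubfield) (H248.RcG A E.toSubfield (cstG (F1 M)))
        (iotaG M (F1 M) hle (jOm M)),
      b * (cstG (F1 M) w₀)⁻¹ ∈ VcT (F1 M) A E.toSubfield →
        b * (cstG (F1 M) w₀)⁻¹ ∈ chart (FcT (F1 M) E.toSubfield)
          (H248.RcG A E.toSubfield (cstG (F1 M))) (iotaG M (F1 M) hle (jOm M))) ∧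
    (∀ b ∈ chart (FcT (F1 M) E.toSubfield) (H248.RcG A E.toSubfield (cstG (F1 M)))
        (iotaG M (F1 M) hle (jOm M))⁻¹,
      b * (cstG (F1 M) w₀)⁻¹ ∈ VcT (F1 M) A E.toSubfield →
        b * (cstG (F1 M) w₀)⁻¹ ∈ chart (FcT (F1 M) E.toSubfield)
          (H248.RcG A E.toSubfield (cstG (F1 M))) (iotaG M (F1 M) hle (jOm M))⁻¹) := by
  obtain ⟨ζ, hζ⟩ := iact_exists_zeta_of_mem M E hζE
  exact iact_top_qep hle ζ hζ (H668.coeffEmb_mem_avatarField_F1 ζ hζ)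
    (fun w₁ hd => H668.f1Emb_fieldRange_le_iactBd ζ hζ (iactO A E) hd) hℓM hA hunif

/-- **`Red1.TopLeaves (F1 M) A E w₀ j` from its two remaining fields** `finite`, `separable`
(the fields `qep_fin`, `qep_inf` are `iact_topLeaves_qep_F1`). -/
theorem iact_topLeaves_F1_of {ℓ : ℕ} [Fact ℓ.Prime] (hℓM : ¬ ℓ ∣ M) (hA : A.LiesOverPrime ℓ)
    [FiniteDimensional ℚ E] (hζE : ((iactZeta M : Qbˣ) : Qb) ∈ E)
    {w₀ : Qb} (hunif : H248.IsUnifG A E.toSubfield w₀)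
    (hle : modularFunctionFieldFull M ≤ F1 M)
    (hfin : ∃ s : Finset (OmG (F1 M)), (s : Set (OmG (F1 M))) ⊆ FcT (F1 M) E.toSubfield ∧
      ∀ f ∈ FcT (F1 M) E.toSubfield, f ∈ Submodule.span
        (ratField (H248.EcG E.toSubfield (cstG (F1 M))) (iotaG M (F1 M) hle (jOm M)))
        (s : Set (OmG (F1 M))))
    (hsep : ∀ f ∈ VcT (F1 M) A E.toSubfield, ∃ P : Polynomial (OmG (F1 M)),
      (∀ i, P.coeff i ∈ polyRing (H248.RcG A E.toSubfield (cstG (F1 M)))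
        (iotaG M (F1 M) hle (jOm M))) ∧
      P.eval f * (cstG (F1 M) w₀)⁻¹ ∈ VcT (F1 M) A E.toSubfield ∧
      (Polynomial.derivative P).eval f ≠ 0 ∧
      ((Polynomial.derivative P).eval f)⁻¹ ∈ VcT (F1 M) A E.toSubfield) :
    TopLeaves (F1 M) A E.toSubfield w₀ (iotaG M (F1 M) hle (jOm M)) :=
  { finite := hfin
    separable := hsep
    qep_fin := (iact_topLeaves_qep_F1 hℓM hA hζE hunif hle).1
    qep_inf := (iact_topLeaves_qep_F1 hℓM hA hζE hunif hle).2 }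

end Main

end Fermat.Agent.S48.H828

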