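import Fermat.Agent.S48.H828.IActInv

/-!
# S48 / Tower A1 / IGUSA1, piece I-ACT (helper828), part 3: the field of level-`M` modular
functions `E`-rational at all cusps, with its Galois action

`IActField ι M := Frac (iactRing ι M)`.

* `iactFieldExp ι M : IActField ι M →+* LaurentSeries E` : the `X`-expansion (`X = q^{1/M}`),
  injective; its range is the field called `Ffull` in the IGUSA1 memo.
* `SL(2,ℤ)` acts (`MulSemiringAction`), `Γ(M)` acts trivially (`iact_field_smul_of_mem_Gamma`),
  so the action factors through the FINITE group `SL(2,ℤ) ⧸ Γ(M)` (`iactQuotAction`).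
* `iact_fixed_iff` : the fixed field is `E(j)`.
* `iactFieldExp_T_smul` : `T` acts on expansions by the substitution `X ↦ ζ⁻¹ X`.
-/

set_option autoImplicit false
set_option linter.unusedSectionVars false
set_option warn.classDefReducibility false

noncomputable section

open ModularCurve HahnSeries UpperHalfPlane
open scoped MatrixGroups Manifold

namespace Fermat.Agent.S48.H828

open Fermat.Agent.S24 Fermat.Agent.S24.H997 Fermat.Agent.S24.H624 Fermat.Agent.S20.L1

/-! ### a generic norm lemma -/

/-- If a finite-index subgroup `Γ` of `G` fixes `b ≠ 0` (in a domain with `G`-action), then some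
multiple `b * c ≠ 0` is fixed by all of `G`. -/
theorem iact_exists_invariant_multiple {G R : Type*} [Group G] [CommRing R] [IsDomain R]
    [MulSemiringAction G R] (Γ : Subgroup G) [Finite (G ⧸ Γ)] (b : R)
    (hΓ : ∀ γ ∈ Γ, γ • b = b) (hb : b ≠ 0) :
    ∃ c : R, b * c ≠ 0 ∧ ∀ g : G, g • (b * c) = b * c := by
  classical
  let _ : Fintype (G ⧸ Γ) := Fintype.ofFinite _
  have hterm : ∀ (g : G) (x : G ⧸ Γ),
      g • ((Quotient.out x : G) • b) = (Quotient.out (g • x) : G) • b := by
    intro g x
    have h1 : ((Quotient.out (g • x) : G) : G ⧸ Γ) = ((g * Quotient.out x : G) : G ⧸ Γ) := by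
      rw [QuotientGroup.out_eq']
      conv_lhs => rw [← QuotientGroup.out_eq' x]
      rfl
    have h2 : (Quotient.out (g • x) : G)⁻¹ * (g * Quotient.out x) ∈ Γ := QuotientGroup.eq.mp h1
    have h3 : g * Quotient.out x
        = (Quotient.out (g • x) : G) * ((Quotient.out (g • x) : G)⁻¹ * (g * Quotient.out x)) := by
      group
    rw [← mul_smul, h3, mul_smul, hΓ _ h2]
  set N : R := ∏ x : G ⧸ Γ, (Quotient.out x : G) • b with hN
  have hinv : ∀ g : G, g • N = N := by
    intro g
    rw [hN, Finset.smul_prod']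
    simp only [hterm]
    exact Equiv.prod_comp (MulAction.toPerm g) (fun y : G ⧸ Γ => (Quotient.out y : G) • b)
  have hN0 : N ≠ 0 := by
    rw [hN, Finset.prod_ne_zero_iff]
    intro x _
    exact (smul_ne_zero_iff_ne _).mpr hb
  have hdvd : b ∣ N := by
    have h0 : (Quotient.out ((1 : G) : G ⧸ Γ) : G) • b = b := by
      apply hΓ
      have h1 : ((Quotient.out ((1 : G) : G ⧸ Γ) : G) : G ⧸ Γ) = ((1 : G) : G ⧸ Γ) :=
        QuotientGroup.out_eq' _
      have := QuotientGroup.eq.mp h1.symm
      simpa using this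
    have := Finset.dvd_prod_of_mem (fun x : G ⧸ Γ => (Quotient.out x : G) • b)
      (Finset.mem_univ ((1 : G) : G ⧸ Γ))
    rwa [h0] at this
  obtain ⟨c, hc⟩ := hdvd
  exact ⟨c, hc ▸ hN0, fun g => hc ▸ hinv g⟩

variable {E : Type*} [Field E] [CharZero E] (ι : E →+* ℂ) (M : ℕ) [NeZero M]

/-- The field of level-`M` modular functions, `E`-rational at all cusps. -/
abbrev IActField : Type := FractionRing (iactRing ι M)

/-- The action of `SL(2,ℤ)` on `IActField`, extending `(γ • f) τ = f (γ⁻¹ • τ)`. -/
instance iactFieldAction : MulSemiringAction SL(2, ℤ) (IActField ι M) :=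
  IsFractionRing.mulSemiringAction SL(2, ℤ) (iactRing ι M) (IActField ι M)

variable {ι M}

theorem iact_smul_algebraMap (γ : SL(2, ℤ)) (f : iactRing ι M) :
    γ • algebraMap (iactRing ι M) (IActField ι M) f
      = algebraMap (iactRing ι M) (IActField ι M) (γ • f) :=
  IsFractionRing.ringEquivOfRingEquiv_algebraMap
    (MulSemiringAction.toRingEquiv SL(2, ℤ) (iactRing ι M) γ) f

variable (ι M)

/-- The `X`-expansion on the field. -/
def iactFieldExp : IActField ι M →+* LaurentSeries E :=
  IsFractionRing.lift (iactExp_injective (ι := ι) (M := M))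

/-- Constants `E → IActField`. -/
def iactFC : E →+* IActField ι M :=
  (algebraMap (iactRing ι M) (IActField ι M)).comp (iactC ι M)

/-- The `j`-function in `IActField`. -/
def iactFJ : IActField ι M := algebraMap (iactRing ι M) (IActField ι M) (iactJ ι M)

variable {ι M}

@[simp] theorem iactFieldExp_algebraMap (f : iactRing ι M) :
    iactFieldExp ι M (algebraMap (iactRing ι M) (IActField ι M) f) = iactExp ι M f :=
  IsFractionRing.lift_algebraMap (iactExp_injective (ι := ι) (M := M)) f

theorem iactFieldExp_injective : Function.Injective (iactFieldExp ι M) :=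
  (iactFieldExp ι M).injective

theorem iactFieldExp_C (c : E) : iactFieldExp ι M (iactFC ι M c) = HahnSeries.C c := by
  rw [iactFC, RingHom.comp_apply, iactFieldExp_algebraMap, iactExp_C]

theorem iactFieldExp_J : iactFieldExp ι M (iactFJ ι M) = iactJX E M := by
  rw [iactFJ, iactFieldExp_algebraMap, iactExp_J]

theorem iact_eval₂_field (P : Polynomial E) :
    Polynomial.eval₂ (iactFC ι M) (iactFJ ι M) P
      = algebraMap (iactRing ι M) (IActField ι M)
          (Polynomial.eval₂ (iactC ι M) (iactJ ι M) P) := by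
  rw [Polynomial.hom_eval₂]
  rfl

theorem iact_field_smul_eval₂ (γ : SL(2, ℤ)) (P : Polynomial E) :
    γ • Polynomial.eval₂ (iactFC ι M) (iactFJ ι M) P
      = Polynomial.eval₂ (iactFC ι M) (iactFJ ι M) P := by
  rw [iact_eval₂_field, iact_smul_algebraMap, iact_smul_eval₂]

/-- `Γ(M)` acts trivially on `IActField`. -/
theorem iact_field_smul_of_mem_Gamma {γ : SL(2, ℤ)} (hγ : γ ∈ CongruenceSubgroup.Gamma M)
    (x : IActField ι M) : γ • x = x := by
  obtain ⟨a, b, hb, rfl⟩ := IsFractionRing.div_surjective (A := iactRing ι M) x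
  rw [smul_div₀', iact_smul_algebraMap, iact_smul_algebraMap, iact_smul_of_mem_Gamma hγ,
    iact_smul_of_mem_Gamma hγ]

/-- **Fixed field.** An element of `IActField` is `SL(2,ℤ)`-invariant iff it is a rational
function of `j` with coefficients in `E`. -/
theorem iact_fixed_iff (x : IActField ι M) :
    (∀ γ : SL(2, ℤ), γ • x = x) ↔
      ∃ P Q : Polynomial E, Polynomial.eval₂ (iactFC ι M) (iactFJ ι M) Q ≠ 0 ∧
        x = Polynomial.eval₂ (iactFC ι M) (iactFJ ι M) P
          / Polynomial.eval₂ (iactFC ι M) (iactFJ ι M) Q := by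
  constructor
  · intro hx
    obtain ⟨a, b, hb, rfl⟩ := IsFractionRing.div_surjective (A := iactRing ι M) x
    have hb0 : b ≠ 0 := nonZeroDivisors.ne_zero hb
    obtain ⟨c, hc0, hcinv⟩ := iact_exists_invariant_multiple (G := SL(2, ℤ))
      (CongruenceSubgroup.Gamma M) b (fun γ hγ => iact_smul_of_mem_Gamma hγ b) hb0
    have hinj : Function.Injective (algebraMap (iactRing ι M) (IActField ι M)) :=
      IsFractionRing.injective _ _
    have hbc : algebraMap (iactRing ι M) (IActField ι M) (b * c) ≠ 0 := by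
      rw [Ne, map_eq_zero_iff _ hinj]
      exact hc0
    have hb' : algebraMap (iactRing ι M) (IActField ι M) b ≠ 0 := by
      rw [Ne, map_eq_zero_iff _ hinj]
      exact hb0
    have hx' : algebraMap (iactRing ι M) (IActField ι M) a
        / algebraMap (iactRing ι M) (IActField ι M) b
        = algebraMap (iactRing ι M) (IActField ι M) (a * c)
          / algebraMap (iactRing ι M) (IActField ι M) (b * c) := by
      rw [map_mul, map_mul]
      have hc' : algebraMap (iactRing ι M) (IActField ι M) c ≠ 0 := by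
        intro h
        apply hbc
        rw [map_mul, h, mul_zero]
      field_simp
    have hacinv : ∀ γ : SL(2, ℤ), γ • (a * c) = a * c := by
      intro γ
      apply hinj
      have h1 : algebraMap (iactRing ι M) (IActField ι M) (a * c)
          = (algebraMap (iactRing ι M) (IActField ι M) a
              / algebraMap (iactRing ι M) (IActField ι M) b)
            * algebraMap (iactRing ι M) (IActField ι M) (b * c) := by
        rw [hx']
        field_simp
      rw [← iact_smul_algebraMap, h1, smul_mul', hx γ, iact_smul_algebraMap, hcinv γ]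
    obtain ⟨P, hP⟩ := iact_invariant_eq_eval₂ (a * c) hacinv
    obtain ⟨Q, hQ⟩ := iact_invariant_eq_eval₂ (b * c) hcinv
    refine ⟨P, Q, ?_, ?_⟩
    · rw [iact_eval₂_field, ← hQ]
      exact hbc
    · rw [iact_eval₂_field, iact_eval₂_field, ← hP, ← hQ]
      exact hx'
  · rintro ⟨P, Q, -, rfl⟩ γ
    rw [smul_div₀', iact_field_smul_eval₂, iact_field_smul_eval₂]

/-! ### the action of `T` on expansions -/

theorem iact_T_inv_smul (τ : ℍ) : (ModularGroup.T)⁻¹ • τ = infAff 1 (-1) 1 τ := by
  rw [inv_smul_eq_iff, iact_T_smul]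
  apply UpperHalfPlane.ext
  rw [infAff_coe one_pos one_pos, infAff_coe one_pos one_pos]
  push_cast
  ring

theorem iact_coeffMap_infTwist (u : Eˣ) (φ : LaurentSeries E) :
    coeffMap ι (infTwist u φ) = infTwist (Units.map (ι : E →* ℂ) u) (coeffMap ι φ) := by
  ext n
  rw [coeffMap_coeff, infTwist_coeff, infTwist_coeff, coeffMap_coeff, map_mul, ← map_zpow]
  rfl

/-- `T` acts on the `X`-expansion by `X ↦ ζ⁻¹ X`, where `ζ ∈ E` maps to `exp(2πi/M)`. -/
theorem iactExp_T_smul (ζ : Eˣ) (hζ : Units.map (ι : E →* ℂ) ζ = infRoot 1 M)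
    (f : iactRing ι M) :
    iactExp ι M (ModularGroup.T • f) = infTwist ζ⁻¹ (iactExp ι M f) := by
  apply iactExp_eq
  rw [iact_coeffMap_infTwist, map_inv, hζ]
  have h1 : (infRoot 1 M)⁻¹ = infRoot (-1) M := by
    rw [← iact_infRoot_one_zpow (M := M) (-1), zpow_neg_one]
  rw [h1]
  refine ((iactExp_spec f).comp_translate (-1)).congr fun τ => ?_
  rw [iact_smul_apply, iact_T_inv_smul]

/-- `T` acts on the `X`-expansion of field elements by `X ↦ ζ⁻¹ X`. -/
theorem iactFieldExp_T_smul (ζ : Eˣ) (hζ : Units.map (ι : E →* ℂ) ζ = infRoot 1 M)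
    (x : IActField ι M) :
    iactFieldExp ι M (ModularGroup.T • x) = infTwist ζ⁻¹ (iactFieldExp ι M x) := by
  obtain ⟨a, b, hb, rfl⟩ := IsFractionRing.div_surjective (A := iactRing ι M) x
  rw [smul_div₀', iact_smul_algebraMap, iact_smul_algebraMap, map_div₀, map_div₀, map_div₀,
    iactFieldExp_algebraMap, iactFieldExp_algebraMap, iactFieldExp_algebraMap,
    iactFieldExp_algebraMap, iactExp_T_smul ζ hζ, iactExp_T_smul ζ hζ]

/-! ### the finite quotient `SL(2,ℤ) ⧸ Γ(M)` -/

instance iact_Gamma_normal (N : ℕ) : (CongruenceSubgroup.Gamma N).Normal :=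
  CongruenceSubgroup.Gamma_normal N

variable (ι M)

/-- The action as a homomorphism from the finite group `SL(2,ℤ) ⧸ Γ(M)`. -/
def iactQuotHom : (SL(2, ℤ) ⧸ CongruenceSubgroup.Gamma M) →* RingAut (IActField ι M) :=
  QuotientGroup.lift (CongruenceSubgroup.Gamma M)
    (MulSemiringAction.toRingAut SL(2, ℤ) (IActField ι M))
    (fun γ hγ => RingEquiv.ext fun x => iact_field_smul_of_mem_Gamma hγ x)

/-- The action of the finite group `SL(2,ℤ) ⧸ Γ(M)` on `IActField` (a `def`, not an instance). -/
def iactQuotAction :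
    MulSemiringAction (SL(2, ℤ) ⧸ CongruenceSubgroup.Gamma M) (IActField ι M) :=
  MulSemiringAction.compHom (IActField ι M) (iactQuotHom ι M)

variable {ι M}

theorem iactQuotHom_mk (g : SL(2, ℤ)) (x : IActField ι M) :
    iactQuotHom ι M (g : SL(2, ℤ) ⧸ CongruenceSubgroup.Gamma M) x = g • x := rfl

theorem iactQuotAction_mk_smul (g : SL(2, ℤ)) (x : IActField ι M) :
    letI := iactQuotAction ι M
    ((g : SL(2, ℤ) ⧸ CongruenceSubgroup.Gamma M) • x : IActField ι M) = g • x := rfl

instance iact_finite_quot : Finite (SL(2, ℤ) ⧸ CongruenceSubgroup.Gamma M) :=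
  Subgroup.finite_quotient_of_finiteIndex

/-- Fixed field of the finite group action. -/
theorem iactQuot_fixed_iff (x : IActField ι M) :
    (∀ q : SL(2, ℤ) ⧸ CongruenceSubgroup.Gamma M, iactQuotHom ι M q x = x) ↔
      ∃ P Q : Polynomial E, Polynomial.eval₂ (iactFC ι M) (iactFJ ι M) Q ≠ 0 ∧
        x = Polynomial.eval₂ (iactFC ι M) (iactFJ ι M) P
          / Polynomial.eval₂ (iactFC ι M) (iactFJ ι M) Q := by
  rw [← iact_fixed_iff]
  constructor
  · intro h γ
    exact h (γ : SL(2, ℤ) ⧸ CongruenceSubgroup.Gamma M)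
  · intro h q
    obtain ⟨g, rfl⟩ := QuotientGroup.mk_surjective q
    exact h g

end Fermat.Agent.S48.H828
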