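import Fermat.Agent.S48.H828.IActField
import Fermat.Agent.S48.H368.IGrpT

/-!
# S48 / Tower A1 / IGUSA1, piece I-ACT (helper828), part 4: the groups `G`, `B` and `t`

For `Ω := IActField ι M` we define (as subgroups / elements of `Ω ≃+* Ω`, the shape of
`Fermat.Agent.S48.H856.IgusaData`):

* `iactRho ι M : SL(2,ℤ) →* (Ω ≃+* Ω)` the action;
* `iactG ι M := range`, `iactB ι M := image of Γ₀(M)`, `iactT ι M := image of T`;

and prove the group-theoretic fields of `IgusaData`: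
`iactG_finite`, `iactB_le`, `iactT_mem`, `iactT_normal`, `iactT_gen`, `iactG_fix_C`, `iactG_fix_J`,
`iactG_inv` (fixed field `= E(j)`).
-/

set_option autoImplicit false
set_option linter.unusedSectionVars false

noncomputable section

open ModularCurve HahnSeries UpperHalfPlane
open scoped MatrixGroups Manifold

namespace Fermat.Agent.S48.H828

open Fermat.Agent.S24 Fermat.Agent.S24.H997 Fermat.Agent.S24.H624 Fermat.Agent.S20.L1
open Fermat.Agent.S48.H368

/-! ### matrix computation: `g T g⁻¹ ≡ T^(a²)` modulo `Γ(M)` for `g ∈ Γ₀(M)` -/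

theorem iact_T_zpow (n : ℤ) : ModularGroup.T ^ n = upperU (n : ℤ) := by
  rw [modularGroup_T_eq, ← upperU_zsmul]
  simp

theorem iact_conj_matrix (g : SL(2, ℤ)) (n : ℤ) :
    ((upperU n * (g * upperU (1 : ℤ) * g⁻¹) : SL(2, ℤ)) : Matrix (Fin 2) (Fin 2) ℤ)
      = !![(g 0 0 * g 1 1 - (g 0 0 + g 0 1) * g 1 0)
              + n * (g 1 0 * g 1 1 - (g 1 0 + g 1 1) * g 1 0),
           (-(g 0 0 * g 0 1) + (g 0 0 + g 0 1) * g 0 0)
              + n * (-(g 1 0 * g 0 1) + (g 1 0 + g 1 1) * g 0 0);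
           g 1 0 * g 1 1 - (g 1 0 + g 1 1) * g 1 0,
           -(g 1 0 * g 0 1) + (g 1 0 + g 1 1) * g 0 0] := by
  rw [Matrix.SpecialLinearGroup.coe_mul, Matrix.SpecialLinearGroup.coe_mul,
    Matrix.SpecialLinearGroup.coe_mul, coe_upperU, coe_upperU,
    Matrix.SpecialLinearGroup.coe_inv, Matrix.adjugate_fin_two]
  ext i j
  fin_cases i <;> fin_cases j <;> simp [Matrix.mul_apply, Fin.sum_univ_two] <;> ring

theorem iact_conj_T_mem_Gamma (M : ℕ) {g : SL(2, ℤ)} (hg : g ∈ CongruenceSubgroup.Gamma0 M) :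
    (ModularGroup.T ^ (g 0 0 ^ 2 : ℤ))⁻¹ * (g * ModularGroup.T * g⁻¹)
      ∈ CongruenceSubgroup.Gamma M := by
  have hc : ((g 1 0 : ℤ) : ZMod M) = 0 := CongruenceSubgroup.Gamma0_mem.mp hg
  have hdet : g 0 0 * g 1 1 - g 0 1 * g 1 0 = 1 := sl2_det_eq g
  have hdet' : ((g 0 0 : ℤ) : ZMod M) * ((g 1 1 : ℤ) : ZMod M) = 1 := by
    have := congrArg (fun z : ℤ => (z : ZMod M)) hdet
    simp only [Int.cast_sub, Int.cast_mul, Int.cast_one, hc, mul_zero, sub_zero] at this
    exact this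
  rw [iact_T_zpow, ← upperU_neg, modularGroup_T_eq, CongruenceSubgroup.Gamma_mem]
  have hmat := iact_conj_matrix g (-(g 0 0 ^ 2))
  have e00 := congrFun (congrFun hmat 0) 0
  have e01 := congrFun (congrFun hmat 0) 1
  have e10 := congrFun (congrFun hmat 1) 0
  have e11 := congrFun (congrFun hmat 1) 1
  simp only [Matrix.of_apply, Matrix.cons_val_zero, Matrix.cons_val_one, Matrix.cons_val',
    Matrix.cons_val_fin_one] at e00 e01 e10 e11
  refine ⟨?_, ?_, ?_, ?_⟩
  · rw [e00]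
    push_cast
    rw [hc]
    linear_combination hdet'
  · rw [e01]
    push_cast
    rw [hc]
    linear_combination (-(((g 0 0 : ℤ) : ZMod M) ^ 2)) * hdet'
  · rw [e10]
    push_cast
    rw [hc]
    ring
  · rw [e11]
    push_cast
    rw [hc]
    linear_combination hdet'

variable {E : Type*} [Field E] [CharZero E] (ι : E →+* ℂ) (M : ℕ) [NeZero M]

/-- The action of `SL(2,ℤ)` on `IActField ι M` as a homomorphism to ring automorphisms. -/
def iactRho : SL(2, ℤ) →* (IActField ι M ≃+* IActField ι M) :=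
  MulSemiringAction.toRingAut SL(2, ℤ) (IActField ι M)

/-- `G`: the image of `SL(2,ℤ)`. -/
def iactG : Subgroup (IActField ι M ≃+* IActField ι M) := (iactRho ι M).range

/-- `B`: the image of `Γ₀(M)`. -/
def iactB : Subgroup (IActField ι M ≃+* IActField ι M) :=
  (CongruenceSubgroup.Gamma0 M).map (iactRho ι M)

/-- `t`: the image of `T`. -/
def iactT : IActField ι M ≃+* IActField ι M := iactRho ι M ModularGroup.T

variable {ι M}

@[simp] theorem iactRho_apply (g : SL(2, ℤ)) (x : IActField ι M) : iactRho ι M g x = g • x := rfl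

theorem iactRho_of_mem_Gamma {g : SL(2, ℤ)} (hg : g ∈ CongruenceSubgroup.Gamma M) :
    iactRho ι M g = 1 :=
  RingEquiv.ext fun x => iact_field_smul_of_mem_Gamma hg x

theorem iactRho_eq_quot (g : SL(2, ℤ)) :
    iactRho ι M g = iactQuotHom ι M (g : SL(2, ℤ) ⧸ CongruenceSubgroup.Gamma M) := rfl

theorem iactG_eq_range_quot : iactG ι M = (iactQuotHom ι M).range := by
  ext σ
  constructor
  · rintro ⟨g, rfl⟩
    exact ⟨(g : SL(2, ℤ) ⧸ CongruenceSubgroup.Gamma M), rfl⟩
  · rintro ⟨q, rfl⟩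
    obtain ⟨g, rfl⟩ := QuotientGroup.mk_surjective q
    exact ⟨g, rfl⟩

theorem iactG_finite : Finite (iactG ι M) := by
  rw [iactG_eq_range_quot]
  exact Set.finite_range _

theorem iactB_le : iactB ι M ≤ iactG ι M := by
  rintro σ ⟨g, -, rfl⟩
  exact ⟨g, rfl⟩

theorem iact_T_mem_Gamma0 : ModularGroup.T ∈ CongruenceSubgroup.Gamma0 M := by
  rw [CongruenceSubgroup.Gamma0_mem]
  simp [ModularGroup.T]

theorem iactT_mem : iactT ι M ∈ iactB ι M := ⟨ModularGroup.T, iact_T_mem_Gamma0, rfl⟩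

theorem iactT_mem_G : iactT ι M ∈ iactG ι M := iactB_le iactT_mem

/-- `B` normalises `⟨t⟩`. -/
theorem iactT_normal : ∀ b ∈ iactB ι M, b * iactT ι M * b⁻¹ ∈ Subgroup.zpowers (iactT ι M) := by
  rintro b ⟨g, hg, rfl⟩
  have h := iactRho_of_mem_Gamma (ι := ι) (iact_conj_T_mem_Gamma M hg)
  rw [map_mul, map_inv, map_zpow, inv_mul_eq_one, map_mul, map_mul, map_inv] at h
  refine ⟨(g 0 0 ^ 2 : ℤ), ?_⟩
  exact h

/-- The `G`-conjugates of `t` generate `G`. -/
theorem iactT_gen :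
    iactG ι M ≤ Subgroup.closure {s | ∃ g ∈ iactG ι M, s = g * iactT ι M * g⁻¹} := by
  rintro σ ⟨γ, rfl⟩
  have hγ : γ ∈ Subgroup.normalClosure ({ModularGroup.T} : Set SL(2, ℤ)) := by
    rw [normalClosure_T]; trivial
  unfold Subgroup.normalClosure at hγ
  induction hγ using Subgroup.closure_induction with
  | mem x hx =>
    rw [Group.mem_conjugatesOfSet_iff] at hx
    obtain ⟨a, ha, hax⟩ := hx
    rw [Set.mem_singleton_iff] at ha
    subst ha
    obtain ⟨c, rfl⟩ := isConj_iff.mp hax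
    refine Subgroup.subset_closure ⟨iactRho ι M c, ⟨c, rfl⟩, ?_⟩
    rw [map_mul, map_mul, map_inv]
    rfl
  | one => rw [map_one]; exact one_mem _
  | mul x y _ _ hx hy => rw [map_mul]; exact mul_mem hx hy
  | inv x _ hx => rw [map_inv]; exact inv_mem hx

theorem iactG_fix_C (g : IActField ι M ≃+* IActField ι M) (hg : g ∈ iactG ι M) (c : E) :
    g (iactFC ι M c) = iactFC ι M c := by
  obtain ⟨γ, rfl⟩ := hg
  rw [iactRho_apply, iactFC, RingHom.comp_apply, iact_smul_algebraMap, iact_smul_C]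

theorem iactG_fix_J (g : IActField ι M ≃+* IActField ι M) (hg : g ∈ iactG ι M) :
    g (iactFJ ι M) = iactFJ ι M := by
  obtain ⟨γ, rfl⟩ := hg
  rw [iactRho_apply, iactFJ, iact_smul_algebraMap, iact_smul_J]

/-- **Fixed field of `G`** is `E(j)`. -/
theorem iactG_inv (x : IActField ι M) (hx : ∀ g ∈ iactG ι M, g x = x) :
    ∃ P Q : Polynomial E, Polynomial.eval₂ (iactFC ι M) (iactFJ ι M) Q ≠ 0 ∧
      x = Polynomial.eval₂ (iactFC ι M) (iactFJ ι M) P
        / Polynomial.eval₂ (iactFC ι M) (iactFJ ι M) Q :=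
  (iact_fixed_iff x).mp fun γ => hx _ ⟨γ, rfl⟩

end Fermat.Agent.S48.H828
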