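import Fermat.Agent.S48.H828.IActRing
import Fermat.Agent.S28.H685.JPrinciple
import Fermat.Prelude.Thm_ModularCurve_coeffMap_qExpand

/-!
# S48 / Tower A1 / IGUSA1, piece I-ACT (helper828), part 2: `SL(2,ℤ)`-invariants are `E[j]`

* `iactJ : iactRing ι M` is the `j`-function, with expansion `jq(X^M)` (`iactExp_J`).
* `iact_coeff_eq_zero_of_T` : a `T`-invariant function has only exponents divisible by `M`.
* `iact_exists_poly` : an `SL(2,ℤ)`-invariant holomorphic function with an `E`-rational expansion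
  is a polynomial in `j` with coefficients in `E` (function level and series level).
* `iact_invariant_eq_eval₂` : the invariants of `iactRing ι M` are `E[j]`.
-/

set_option autoImplicit false
set_option linter.unusedSectionVars false

noncomputable section

open ModularCurve HahnSeries UpperHalfPlane
open scoped MatrixGroups Manifold

namespace Fermat.Agent.S48.H828

open Fermat.Agent.S24 Fermat.Agent.S24.H997 Fermat.Agent.S24.H624 Fermat.Agent.S20.L1

variable {E : Type*} [Field E] [CharZero E] {ι : E →+* ℂ} {M : ℕ} [NeZero M]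

/-! ### the `j`-function -/

theorem iact_coeffMap_coeffEmb (x : LaurentSeries ℚ) :
    coeffMap ι (coeffEmb E x) = coeffEmb ℂ x := by
  rw [coeffEmb, coeffMap_coeffMap]
  exact coeffMap_congr (RingHom.ext fun c => by simp) x

variable (E M) in
/-- The expansion `jq(X^M)` of `j` in the variable `X = q^{1/M}`, over `E`. -/
def iactJX : LaurentSeries E := qExpand E M (coeffEmb E jq)

theorem iact_coeffMap_JX : coeffMap ι (iactJX E M) = qExpand ℂ M infJq := by
  rw [iactJX, coeffMap_qExpand, iact_coeffMap_coeffEmb]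
  rfl

theorem iact_infExp_jFun : InfExp M jFun (qExpand ℂ M infJq) := by
  have hM : 0 < M := Nat.pos_of_ne_zero (NeZero.ne M)
  have h := (infExp_jFun).comp_infAff (M := 1) (N := M) (a := 1) (d := 1) (e := M) 0
    one_pos one_pos one_pos hM (by ring)
  rw [infRoot_zero, infTwist_one] at h
  refine h.congr fun τ => ?_
  rw [infAff_one_zero_one]

theorem iactRat_jFun : IActRat ι M jFun :=
  ⟨iactJX E M, by rw [iact_coeffMap_JX]; exact iact_infExp_jFun⟩

theorem compSL_jFun (γ : SL(2, ℤ)) : compSL γ jFun = jFun := by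
  funext τ
  exact jFun_smul' γ τ

theorem jFun_mem_iactRing : jFun ∈ iactRing ι M :=
  ⟨mdiff_jFun, fun γ _ => compSL_jFun γ, fun γ => by rw [compSL_jFun]; exact iactRat_jFun⟩

variable (ι M) in
/-- The `j`-function as an element of `iactRing`. -/
def iactJ : iactRing ι M := ⟨jFun, jFun_mem_iactRing⟩

theorem iactExp_J : iactExp ι M (iactJ ι M) = iactJX E M :=
  iactExp_eq (by rw [iact_coeffMap_JX]; exact iact_infExp_jFun)

theorem iact_smul_J (γ : SL(2, ℤ)) : γ • iactJ ι M = iactJ ι M :=
  Subtype.ext (compSL_jFun γ⁻¹)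

/-! ### `T`-invariance and the support of the expansion -/

theorem iact_T_smul (τ : ℍ) : ModularGroup.T • τ = infAff 1 1 1 τ := by
  apply UpperHalfPlane.ext
  rw [infAff_coe one_pos one_pos, UpperHalfPlane.modular_T_smul, UpperHalfPlane.coe_vadd]
  push_cast
  ring

theorem iact_infRoot_one_zpow (n : ℤ) : infRoot 1 M ^ n = infRoot n M := by
  apply Units.ext
  rw [infRoot_zpow_coe, infRoot_coe, ← Complex.exp_int_mul]
  congr 1
  push_cast
  ring

/-- A `T`-invariant function has no exponents prime to the width. -/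
theorem iact_coeff_eq_zero_of_T {f : ℍ → ℂ} {Φ : LaurentSeries ℂ} (h : InfExp M f Φ)
    (hT : ∀ τ, f (ModularGroup.T • τ) = f τ) {n : ℤ} (hn : ¬ (M : ℤ) ∣ n) : Φ.coeff n = 0 := by
  have hM : 0 < M := Nat.pos_of_ne_zero (NeZero.ne M)
  have h1 : InfExp M f (infTwist (infRoot 1 M) Φ) := by
    refine (h.comp_translate 1).congr fun τ => ?_
    rw [← iact_T_smul, hT]
  have h2 := congrArg (fun x : LaurentSeries ℂ => x.coeff n) (h1.unique h)
  simp only [infTwist_coeff] at h2
  by_contra hne
  have h3 : (((infRoot 1 M) ^ n : ℂˣ) : ℂ) = 1 := by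
    have := mul_left_cancel₀ hne (h2.trans (mul_one _).symm)
    exact this
  have h4 : infRoot n M = infRoot 0 M := by
    rw [infRoot_zero, ← iact_infRoot_one_zpow]
    exact Units.ext h3
  rw [infRoot_eq_iff hM, sub_zero] at h4
  exact hn h4

/-! ### the constant case -/

theorem iact_const_of_invariant {f : ℍ → ℂ} {Φ : LaurentSeries ℂ} (hol : MDiff f)
    (hinv : ∀ (γ : SL(2, ℤ)) (τ : ℍ), f (γ • τ) = f τ) (h : InfExp M f Φ)
    (hΦ : ∀ n : ℤ, n < 0 → Φ.coeff n = 0) : ∀ τ, f τ = Φ.coeff 0 := by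
  have hM : (0 : ℝ) < M := by exact_mod_cast Nat.pos_of_ne_zero (NeZero.ne M)
  obtain ⟨A, rfl⟩ := Fermat.Agent.S28.H685.exists_ofPowerSeries_eq Φ hΦ
  have hL : Fermat.Agent.S28.H685.HasQLaurent (M : ℝ) f (HahnSeries.ofPowerSeries ℤ ℂ A) := h
  have hA := hL.hasQExp_of_ofPowerSeries
  obtain ⟨c, hc⟩ := Fermat.Agent.S28.H685.exists_const_of_invariant f hol
    (hA.isBoundedAtImInfty hM) (hinv _) (hinv _)
  have h1 : InfExp M f (HahnSeries.C c) := (InfExp.const c).congr fun τ => (hc τ).symm
  have h2 := h.unique h1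
  intro τ
  rw [h2, hc τ]
  simp

/-! ### structure of the powers of `jq(X^M)` -/

theorem iact_leadingCoeff_pow {R : Type*} [CommRing R] [IsDomain R] (x : LaurentSeries R)
    (n : ℕ) : (x ^ n).leadingCoeff = x.leadingCoeff ^ n := by
  induction n with
  | zero => simp
  | succ n ih => rw [pow_succ, HahnSeries.leadingCoeff_mul, ih, pow_succ]

theorem iact_JXC_order : (qExpand ℂ M infJq).order = -(M : ℤ) := by
  rw [inf_qExpand_order, infJq_order]
  ring

theorem iact_JXC_pow_order (n : ℕ) : ((qExpand ℂ M infJq) ^ n).order = -((M * n : ℕ) : ℤ) := by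
  rw [HahnSeries.order_pow, iact_JXC_order]
  push_cast
  simp only [nsmul_eq_mul]
  ring

theorem iact_JXC_pow_coeff (n : ℕ) :
    ((qExpand ℂ M infJq) ^ n).coeff (-((M * n : ℕ) : ℤ)) = 1 := by
  rw [← iact_JXC_pow_order n, ← HahnSeries.leadingCoeff_eq, iact_leadingCoeff_pow,
    inf_qExpand_leadingCoeff, infJq_leadingCoeff, one_pow]

theorem iact_JXC_pow_coeff_of_lt (n : ℕ) {k : ℤ} (hk : k < -((M * n : ℕ) : ℤ)) :
    ((qExpand ℂ M infJq) ^ n).coeff k = 0 :=
  HahnSeries.coeff_eq_zero_of_lt_order (by rw [iact_JXC_pow_order]; exact hk)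

theorem iact_infExp_pow {f : ℍ → ℂ} {Φ : LaurentSeries ℂ} (h : InfExp M f Φ) (n : ℕ) :
    InfExp M (fun τ => f τ ^ n) (Φ ^ n) := by
  have hL : Fermat.Agent.S28.H685.HasQLaurent (M : ℝ) f Φ := h
  exact hL.pow n

/-! ### the polynomial principle over `E` -/

theorem iact_exists_poly_aux :
    ∀ (n : ℕ) (f : ℍ → ℂ) (φ : LaurentSeries E), MDiff f →
      (∀ (γ : SL(2, ℤ)) (τ : ℍ), f (γ • τ) = f τ) → InfExp M f (coeffMap ι φ) →
      (∀ k : ℤ, k < -((M * n : ℕ) : ℤ) → φ.coeff k = 0) →
      ∃ P : Polynomial E, P.natDegree ≤ n ∧ φ = Polynomial.aeval (iactJX E M) P ∧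
        ∀ τ, f τ = (P.map ι).eval (jFun τ) := by
  intro n
  induction n with
  | zero =>
    intro f φ hol hinv h hφ
    have hφ' : ∀ k : ℤ, k < 0 → (coeffMap ι φ).coeff k = 0 := by
      intro k hk
      rw [coeffMap_coeff, hφ k (by simpa using hk), map_zero]
    have hc := iact_const_of_invariant hol hinv h hφ'
    rw [coeffMap_coeff] at hc
    have h1 : InfExp M f (coeffMap ι (HahnSeries.C (φ.coeff 0))) := by
      rw [iact_coeffMap_C]
      exact (InfExp.const _).congr fun τ => (hc τ).symm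
    have h2 : φ = HahnSeries.C (φ.coeff 0) := iact_unique h h1
    refine ⟨Polynomial.C (φ.coeff 0), by simp, ?_, fun τ => by simpa using hc τ⟩
    rw [Polynomial.aeval_C]
    rw [show algebraMap E (LaurentSeries E) (φ.coeff 0) = HahnSeries.C (φ.coeff 0) from by
      rw [algebraMap_laurentSeries_eq_single]; rfl]
    exact h2
  | succ n ih =>
    intro f φ hol hinv h hφ
    set c := φ.coeff (-((M * (n + 1) : ℕ) : ℤ)) with hc
    set g : ℍ → ℂ := fun τ => f τ - ι c * jFun τ ^ (n + 1) with hg
    set ψ : LaurentSeries E := φ - HahnSeries.C c * (iactJX E M) ^ (n + 1) with hψ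
    have hmap : coeffMap ι ψ =
        coeffMap ι φ - HahnSeries.C (ι c) * (qExpand ℂ M infJq) ^ (n + 1) := by
      rw [hψ, map_sub, map_mul, map_pow, iact_coeffMap_C, iact_coeffMap_JX]
    have hgexp : InfExp M g (coeffMap ι ψ) := by
      rw [hmap]
      exact h.sub ((InfExp.const (ι c)).mul (iact_infExp_pow iact_infExp_jFun (n + 1)))
    have hgol : MDiff g := by
      have h1 : MDiff (fun τ : ℍ => ι c * jFun τ ^ (n + 1)) :=
        (mdifferentiable_const (c := ι c)).mul (mdiff_jFun.pow (n + 1))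
      exact hol.sub h1
    have hginv : ∀ (γ : SL(2, ℤ)) (τ : ℍ), g (γ • τ) = g τ := by
      intro γ τ
      simp only [hg, hinv γ τ, jFun_smul' γ τ]
    have hψ0 : ∀ k : ℤ, k < -((M * n : ℕ) : ℤ) → ψ.coeff k = 0 := by
      intro k hk
      apply ι.injective
      rw [map_zero, ← coeffMap_coeff, hmap]
      by_cases hdvd : (M : ℤ) ∣ k
      · obtain ⟨m, rfl⟩ := hdvd
        have hM : (0 : ℤ) < M := by exact_mod_cast Nat.pos_of_ne_zero (NeZero.ne M)
        have hm : m < -(n : ℤ) := by
          push_cast at hk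
          have : (M : ℤ) * m < (M : ℤ) * (-(n : ℤ)) := by linarith
          exact lt_of_mul_lt_mul_left this hM.le
        rw [HahnSeries.coeff_sub, HahnSeries.C_mul_eq_smul, HahnSeries.coeff_smul, smul_eq_mul,
          coeffMap_coeff]
        rcases lt_or_eq_of_le (show m ≤ -((n : ℤ) + 1) by omega) with h1 | h1
        · have hk' : (M : ℤ) * m < -((M * (n + 1) : ℕ) : ℤ) := by
            push_cast
            nlinarith
          rw [hφ _ hk', iact_JXC_pow_coeff_of_lt (n + 1) hk', map_zero, mul_zero, sub_zero]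
        · have hk' : (M : ℤ) * m = -((M * (n + 1) : ℕ) : ℤ) := by
            rw [h1]; push_cast; ring
          rw [hk', iact_JXC_pow_coeff, mul_one, ← hc, sub_self]
      · rw [← hmap]
        exact iact_coeff_eq_zero_of_T hgexp (hginv _) hdvd
    obtain ⟨P, hPdeg, hPφ, hPf⟩ := ih g ψ hgol hginv hgexp hψ0
    refine ⟨P + Polynomial.C c * Polynomial.X ^ (n + 1), ?_, ?_, ?_⟩
    · refine (Polynomial.natDegree_add_le _ _).trans (max_le (hPdeg.trans (Nat.le_succ n)) ?_)
      exact Polynomial.natDegree_C_mul_X_pow_le c (n + 1)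
    · rw [map_add, ← hPφ, map_mul, map_pow, Polynomial.aeval_X, Polynomial.aeval_C]
      rw [show algebraMap E (LaurentSeries E) c = HahnSeries.C c from by
        rw [algebraMap_laurentSeries_eq_single]; rfl]
      rw [hψ]
      ring
    · intro τ
      have := hPf τ
      simp only [Polynomial.map_add, Polynomial.map_mul, Polynomial.map_pow, Polynomial.map_C,
        Polynomial.map_X, Polynomial.eval_add, Polynomial.eval_mul, Polynomial.eval_C,
        Polynomial.eval_pow, Polynomial.eval_X]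
      rw [← this]
      simp only [hg]
      ring

/-- **Polynomial principle over `E`.** A holomorphic `SL(2,ℤ)`-invariant function with an
`E`-rational expansion in `X = q^{1/M}` is a polynomial in `j` with coefficients in `E`. -/
theorem iact_exists_poly {f : ℍ → ℂ} {φ : LaurentSeries E} (hol : MDiff f)
    (hinv : ∀ (γ : SL(2, ℤ)) (τ : ℍ), f (γ • τ) = f τ) (h : InfExp M f (coeffMap ι φ)) :
    ∃ P : Polynomial E, φ = Polynomial.aeval (iactJX E M) P ∧
      ∀ τ, f τ = (P.map ι).eval (jFun τ) := by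
  obtain ⟨n, hn⟩ : ∃ n : ℕ, ∀ k : ℤ, k < -((M * n : ℕ) : ℤ) → φ.coeff k = 0 := by
    refine ⟨(-φ.order).toNat, fun k hk => HahnSeries.coeff_eq_zero_of_lt_order ?_⟩
    have hM : (1 : ℤ) ≤ M := by exact_mod_cast Nat.one_le_iff_ne_zero.mpr (NeZero.ne M)
    have h1 : -φ.order ≤ ((-φ.order).toNat : ℤ) := Int.self_le_toNat _
    have h2 : (0 : ℤ) ≤ ((-φ.order).toNat : ℤ) := Int.natCast_nonneg _
    push_cast at hk
    nlinarith
  obtain ⟨P, -, h1, h2⟩ := iact_exists_poly_aux n f φ hol hinv h hn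
  exact ⟨P, h1, h2⟩

/-! ### invariants of `iactRing` -/

variable (ι M) in
/-- Constants, as a ring homomorphism `E →+* iactRing ι M`. -/
def iactC : E →+* iactRing ι M where
  toFun c := iactConst c
  map_one' := Subtype.ext (by funext τ; simp [iactConst])
  map_mul' a b := Subtype.ext (by funext τ; simp [iactConst])
  map_zero' := Subtype.ext (by funext τ; simp [iactConst])
  map_add' a b := Subtype.ext (by funext τ; simp [iactConst])

theorem iactC_apply (c : E) (τ : ℍ) : ((iactC ι M c : iactRing ι M) : ℍ → ℂ) τ = ι c := rfl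

theorem iactExp_C (c : E) : iactExp ι M (iactC ι M c) = HahnSeries.C c := iactExp_const c

theorem iact_smul_C (γ : SL(2, ℤ)) (c : E) : γ • iactC ι M c = iactC ι M c := rfl

theorem iact_eval₂_apply (P : Polynomial E) (τ : ℍ) :
    ((Polynomial.eval₂ (iactC ι M) (iactJ ι M) P : iactRing ι M) : ℍ → ℂ) τ
      = (P.map ι).eval (jFun τ) := by
  induction P using Polynomial.induction_on' with
  | add p q hp hq =>
    rw [Polynomial.eval₂_add, Polynomial.map_add, Polynomial.eval_add, ← hp, ← hq]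
    rfl
  | monomial n a =>
    rw [Polynomial.eval₂_monomial, Polynomial.map_monomial, Polynomial.eval_monomial]
    rfl

theorem iact_smul_eval₂ (γ : SL(2, ℤ)) (P : Polynomial E) :
    γ • Polynomial.eval₂ (iactC ι M) (iactJ ι M) P = Polynomial.eval₂ (iactC ι M) (iactJ ι M) P := by
  apply Subtype.ext
  funext τ
  rw [iact_smul_apply, iact_eval₂_apply, iact_eval₂_apply, jFun_smul']

/-- **Invariants.** The `SL(2,ℤ)`-invariant elements of `iactRing ι M` are exactly the
polynomials in `j` with coefficients in `E`. -/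
theorem iact_invariant_eq_eval₂ (f : iactRing ι M) (hinv : ∀ γ : SL(2, ℤ), γ • f = f) :
    ∃ P : Polynomial E, f = Polynomial.eval₂ (iactC ι M) (iactJ ι M) P := by
  have hinv' : ∀ (γ : SL(2, ℤ)) (τ : ℍ), (f : ℍ → ℂ) (γ • τ) = (f : ℍ → ℂ) τ := by
    intro γ τ
    have := congrArg (fun g : iactRing ι M => (g : ℍ → ℂ) τ) (hinv γ⁻¹)
    simpa [iact_smul_apply] using this
  obtain ⟨P, -, hP⟩ := iact_exists_poly (f := (f : ℍ → ℂ)) f.2.1 hinv' (iactExp_spec f)
  refine ⟨P, Subtype.ext ?_⟩
  funext τ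
  rw [hP τ, iact_eval₂_apply]

end Fermat.Agent.S48.H828
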