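import Fermat.Agent.S48.H828.IActJd

/-!
# S48 / Tower A1 / IGUSA1, piece I-ACT (helper828), part 6: change of the field of constants

For `σ : E₁ →+* E₂` and `ι₂ : E₂ →+* ℂ` (so `ι₁ = ι₂ ∘ σ`):

* `iactRing_le`   : `iactRing (ι₂ ∘ σ) M ≤ iactRing ι₂ M`;
* `iactFieldMap`  : the induced field hom `IActField (ι₂ ∘ σ) M →+* IActField ι₂ M`, which is
  `SL(2,ℤ)`-equivariant (`iactFieldMap_smul`) and compatible with expansions (`iactFieldExp_map`);
* `iactG_inv_of_mem_range`, `iactB_inv_of_mem_range` : the fields `G_inv`, `B_inv` of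
  `H856.IgusaData` for `Ω = IActField ι₂ M` (e.g. `E₂ = Q̄`), `Ffull ≤` the `E₁`-rational elements
  (the range of `iactFieldMap`), `Ec =` the constants from `E₁`.
-/

set_option autoImplicit false
set_option linter.unusedSectionVars false

noncomputable section

open ModularCurve HahnSeries UpperHalfPlane
open scoped MatrixGroups Manifold

namespace Fermat.Agent.S48.H828

open Fermat.Agent.S24 Fermat.Agent.S24.H997 Fermat.Agent.S24.H624 Fermat.Agent.S20.L1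

variable {E₁ E₂ : Type*} [Field E₁] [Field E₂] [CharZero E₁] [CharZero E₂]
  (σ : E₁ →+* E₂) (ι₂ : E₂ →+* ℂ) (M : ℕ) [NeZero M]

theorem IActRat.map {f : ℍ → ℂ} (h : IActRat (ι₂.comp σ) M f) : IActRat ι₂ M f := by
  obtain ⟨φ, hφ⟩ := h
  exact ⟨coeffMap σ φ, by rw [coeffMap_coeffMap]; exact hφ⟩

theorem iactRing_le : iactRing (ι₂.comp σ) M ≤ iactRing ι₂ M :=
  fun _ hf => ⟨hf.1, hf.2.1, fun γ => (hf.2.2 γ).map σ ι₂ M⟩

/-- The inclusion `iactRing (ι₂ ∘ σ) M → iactRing ι₂ M`. -/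
def iactRingMap : iactRing (ι₂.comp σ) M →+* iactRing ι₂ M :=
  Subring.inclusion (iactRing_le σ ι₂ M)

variable {σ ι₂ M}

@[simp] theorem iactRingMap_coe (f : iactRing (ι₂.comp σ) M) :
    ((iactRingMap σ ι₂ M f : iactRing ι₂ M) : ℍ → ℂ) = (f : ℍ → ℂ) := rfl

theorem iactRingMap_injective : Function.Injective (iactRingMap σ ι₂ M) :=
  Subring.inclusion_injective _

theorem iactExp_map (f : iactRing (ι₂.comp σ) M) :
    iactExp ι₂ M (iactRingMap σ ι₂ M f) = coeffMap σ (iactExp (ι₂.comp σ) M f) := by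
  apply iactExp_eq
  rw [coeffMap_coeffMap]
  exact iactExp_spec f

theorem iactRingMap_smul (γ : SL(2, ℤ)) (f : iactRing (ι₂.comp σ) M) :
    iactRingMap σ ι₂ M (γ • f) = γ • iactRingMap σ ι₂ M f := rfl

theorem iactRingMap_C (c : E₁) :
    iactRingMap σ ι₂ M (iactC (ι₂.comp σ) M c) = iactC ι₂ M (σ c) := rfl

theorem iactRingMap_J : iactRingMap σ ι₂ M (iactJ (ι₂.comp σ) M) = iactJ ι₂ M := rfl

variable (σ ι₂ M)

/-- The field hom `IActField (ι₂ ∘ σ) M →+* IActField ι₂ M`. -/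
def iactFieldMap : IActField (ι₂.comp σ) M →+* IActField ι₂ M :=
  IsFractionRing.lift (K := IActField (ι₂.comp σ) M)
    (g := (algebraMap (iactRing ι₂ M) (IActField ι₂ M)).comp (iactRingMap σ ι₂ M))
    ((IsFractionRing.injective (iactRing ι₂ M) (IActField ι₂ M)).comp iactRingMap_injective)

variable {σ ι₂ M}

@[simp] theorem iactFieldMap_algebraMap (f : iactRing (ι₂.comp σ) M) :
    iactFieldMap σ ι₂ M (algebraMap (iactRing (ι₂.comp σ) M) (IActField (ι₂.comp σ) M) f)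
      = algebraMap (iactRing ι₂ M) (IActField ι₂ M) (iactRingMap σ ι₂ M f) :=
  IsFractionRing.lift_algebraMap _ f

theorem iactFieldMap_injective : Function.Injective (iactFieldMap σ ι₂ M) :=
  (iactFieldMap σ ι₂ M).injective

theorem iactFieldMap_smul (γ : SL(2, ℤ)) (x : IActField (ι₂.comp σ) M) :
    iactFieldMap σ ι₂ M (γ • x) = γ • iactFieldMap σ ι₂ M x := by
  obtain ⟨a, b, hb, rfl⟩ := IsFractionRing.div_surjective (A := iactRing (ι₂.comp σ) M) x
  rw [smul_div₀', iact_smul_algebraMap, iact_smul_algebraMap, map_div₀, map_div₀,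
    iactFieldMap_algebraMap, iactFieldMap_algebraMap, iactFieldMap_algebraMap,
    iactFieldMap_algebraMap, smul_div₀', iact_smul_algebraMap, iact_smul_algebraMap,
    iactRingMap_smul, iactRingMap_smul]

theorem iactFieldExp_map (x : IActField (ι₂.comp σ) M) :
    iactFieldExp ι₂ M (iactFieldMap σ ι₂ M x) = coeffMap σ (iactFieldExp (ι₂.comp σ) M x) := by
  obtain ⟨a, b, hb, rfl⟩ := IsFractionRing.div_surjective (A := iactRing (ι₂.comp σ) M) x
  rw [map_div₀, map_div₀, map_div₀, map_div₀, iactFieldMap_algebraMap, iactFieldMap_algebraMap,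
    iactFieldExp_algebraMap, iactFieldExp_algebraMap, iactFieldExp_algebraMap,
    iactFieldExp_algebraMap, iactExp_map, iactExp_map]

theorem iactFieldMap_C (c : E₁) :
    iactFieldMap σ ι₂ M (iactFC (ι₂.comp σ) M c) = iactFC ι₂ M (σ c) := by
  rw [iactFC, RingHom.comp_apply, iactFieldMap_algebraMap, iactRingMap_C]
  rfl

theorem iactFieldMap_J : iactFieldMap σ ι₂ M (iactFJ (ι₂.comp σ) M) = iactFJ ι₂ M := by
  rw [iactFJ, iactFieldMap_algebraMap, iactRingMap_J]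
  rfl

theorem iactFieldMap_eval₂ (P : Polynomial E₁) :
    iactFieldMap σ ι₂ M (Polynomial.eval₂ (iactFC (ι₂.comp σ) M) (iactFJ (ι₂.comp σ) M) P)
      = Polynomial.eval₂ ((iactFC ι₂ M).comp σ) (iactFJ ι₂ M) P := by
  rw [Polynomial.hom_eval₂, iactFieldMap_J]
  congr 1
  exact RingHom.ext fun c => iactFieldMap_C c

/-- A root of unity `ζ₁ ∈ E₁` gives one in `E₂`. -/
theorem iact_units_map_comp (ζ : E₁ˣ)
    (hζ : Units.map ((ι₂.comp σ : E₁ →+* ℂ) : E₁ →* ℂ) ζ = infRoot 1 M) :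
    Units.map (ι₂ : E₂ →* ℂ) (Units.map (σ : E₁ →* E₂) ζ) = infRoot 1 M := by
  rw [← hζ]
  exact Units.ext rfl

theorem iactFieldMap_Jd (ζ : E₁ˣ)
    (hζ : Units.map ((ι₂.comp σ : E₁ →+* ℂ) : E₁ →* ℂ) ζ = infRoot 1 M) (d : ℕ) (hd : d ∣ M) :
    iactFieldMap σ ι₂ M (iactFJd ζ hζ d hd)
      = iactFJd (Units.map (σ : E₁ →* E₂) ζ) (iact_units_map_comp ζ hζ) d hd := by
  rw [iactFJd, iactFieldMap_algebraMap]
  rfl

/-! ### the fields `G_inv`, `B_inv` for the `E₁`-rational elements of `IActField ι₂ M` -/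

theorem iact_eval₂_comp_mem_closure (S : Set (IActField ι₂ M)) (hJ : iactFJ ι₂ M ∈ S)
    (P : Polynomial E₁) :
    Polynomial.eval₂ ((iactFC ι₂ M).comp σ) (iactFJ ι₂ M) P
      ∈ Subfield.closure (Set.range ((iactFC ι₂ M).comp σ) ∪ S) := by
  have hJ' : iactFJ ι₂ M ∈ Subfield.closure (Set.range ((iactFC ι₂ M).comp σ) ∪ S) :=
    Subfield.subset_closure (Or.inr hJ)
  have hC : ∀ c : E₁, ((iactFC ι₂ M).comp σ) c
      ∈ Subfield.closure (Set.range ((iactFC ι₂ M).comp σ) ∪ S) :=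
    fun c => Subfield.subset_closure (Or.inl ⟨c, rfl⟩)
  rw [Polynomial.eval₂_eq_sum_range]
  exact sum_mem fun i _ => mul_mem (hC _) (pow_mem hJ' i)

/-- **`G_inv`.** A `G`-invariant `E₁`-rational element of `IActField ι₂ M` lies in `E₁(j)`. -/
theorem iactG_inv_of_mem_range (x : IActField ι₂ M) (hx : x ∈ (iactFieldMap σ ι₂ M).range)
    (hfix : ∀ g ∈ iactG ι₂ M, g x = x) :
    x ∈ Subfield.closure (Set.range ((iactFC ι₂ M).comp σ) ∪ {iactFJ ι₂ M}) := by
  obtain ⟨y, rfl⟩ := hx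
  have hy : ∀ g ∈ iactG (ι₂.comp σ) M, g y = y := by
    rintro g ⟨γ, rfl⟩
    apply iactFieldMap_injective (σ := σ) (ι₂ := ι₂)
    rw [iactRho_apply, iactFieldMap_smul]
    exact hfix _ ⟨γ, rfl⟩
  obtain ⟨P, Q, -, rfl⟩ := iactG_inv y hy
  rw [map_div₀, iactFieldMap_eval₂, iactFieldMap_eval₂]
  exact div_mem
    (iact_eval₂_comp_mem_closure ({iactFJ ι₂ M} : Set (IActField ι₂ M)) (Set.mem_singleton _) P)
    (iact_eval₂_comp_mem_closure ({iactFJ ι₂ M} : Set (IActField ι₂ M)) (Set.mem_singleton _) Q)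

/-- **`B_inv`.** A `Γ₀(M)`-invariant `E₁`-rational element of `IActField ι₂ M` lies in
`E₁(j(dτ) : d ∣ M)`. -/
theorem iactB_inv_of_mem_range (ζ : E₁ˣ)
    (hζ : Units.map ((ι₂.comp σ : E₁ →+* ℂ) : E₁ →* ℂ) ζ = infRoot 1 M)
    (x : IActField ι₂ M) (hx : x ∈ (iactFieldMap σ ι₂ M).range)
    (hfix : ∀ b ∈ iactB ι₂ M, b x = x) :
    x ∈ Subfield.closure (Set.range ((iactFC ι₂ M).comp σ) ∪
      {y | ∃ (d : ℕ) (hd : d ∣ M),
        y = iactFJd (Units.map (σ : E₁ →* E₂) ζ) (iact_units_map_comp ζ hζ) d hd}) := by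
  obtain ⟨y, rfl⟩ := hx
  have hy : ∀ b ∈ iactB (ι₂.comp σ) M, b y = y := by
    rintro g ⟨γ, hγ, rfl⟩
    apply iactFieldMap_injective (σ := σ) (ι₂ := ι₂)
    rw [iactRho_apply, iactFieldMap_smul]
    exact hfix _ ⟨γ, hγ, rfl⟩
  have h := iactB_inv ζ hζ y hy
  have hle : iactF0 ζ hζ ≤ (Subfield.closure (Set.range ((iactFC ι₂ M).comp σ) ∪
      {y | ∃ (d : ℕ) (hd : d ∣ M),
        y = iactFJd (Units.map (σ : E₁ →* E₂) ζ) (iact_units_map_comp ζ hζ) d hd})).comap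
      (iactFieldMap σ ι₂ M) := by
    unfold iactF0
    rw [Subfield.closure_le]
    rintro z (⟨c, rfl⟩ | ⟨d, hd, rfl⟩)
    · rw [SetLike.mem_coe, Subfield.mem_comap, iactFieldMap_C]
      exact Subfield.subset_closure (Or.inl ⟨c, rfl⟩)
    · rw [SetLike.mem_coe, Subfield.mem_comap, iactFieldMap_Jd]
      exact Subfield.subset_closure (Or.inr ⟨d, hd, rfl⟩)
  exact hle h

end Fermat.Agent.S48.H828
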