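import Fermat.Agent.S24.Mod.H997HolBase

/-!
# S48 / Tower A1 / IGUSA1, piece I-ACT (helper828), part 1: the ring of level-`M` modular
functions which are holomorphic on `ℍ` and `E`-rational at every cusp

Generator-free set-up on top of the S24 analytic layer (`InfExp`, `compSL`).

* `E` is any field with a ring hom `ι : E →+* ℂ` (think of a number field containing `ζ_M`).
* `iactRing ι M` : the subring of functions `f : ℍ → ℂ` which are holomorphic, invariant under
  `Γ(M)`, and such that EVERY `SL(2,ℤ)`-translate `f ∘ γ` has a convergent Laurent expansion in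
  `X = exp(2πiτ/M)` with coefficients in `ι(E)`.
* `iactExp ι M : iactRing ι M →+* LaurentSeries E` : the (injective) `X`-expansion at `∞`.
* `SL(2,ℤ)` acts on `iactRing ι M` by `(γ • f) τ = f (γ⁻¹ • τ)`; `Γ(M)` acts trivially.
* `T` acts on expansions by the substitution `X ↦ ζ⁻¹ X`.

Any concrete generator (division values, Eisenstein quotients, `j(dτ)`) lies in `iactRing` as soon
as the three defining properties are checked.
-/

set_option autoImplicit false
set_option linter.unusedSectionVars false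

noncomputable section

open ModularCurve HahnSeries UpperHalfPlane
open scoped MatrixGroups Manifold

namespace Fermat.Agent.S48.H828

open Fermat.Agent.S24 Fermat.Agent.S24.H997 Fermat.Agent.S24.H624

variable {E : Type*} [Field E] (ι : E →+* ℂ) (M : ℕ)

/-- `f` has a convergent expansion at `∞` in `X = exp(2πiτ/M)` with coefficients in `ι(E)`. -/
def IActRat (f : ℍ → ℂ) : Prop := ∃ φ : LaurentSeries E, InfExp M f (coeffMap ι φ)

variable {ι M}

theorem iact_coeffMap_C (c : E) : coeffMap ι (HahnSeries.C c) = HahnSeries.C (ι c) := by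
  show coeffMap ι (HahnSeries.single 0 c) = HahnSeries.single 0 (ι c)
  exact coeffMap_single ι 0 c

theorem IActRat.const (c : E) : IActRat ι M (fun _ => ι c) :=
  ⟨HahnSeries.C c, by rw [iact_coeffMap_C]; exact InfExp.const (ι c)⟩

theorem IActRat.zero : IActRat ι M (fun _ => 0) :=
  ⟨0, by rw [map_zero]; exact InfExp.zero⟩

theorem IActRat.one : IActRat ι M (fun _ => 1) :=
  ⟨1, by rw [map_one]; exact InfExp.one⟩

theorem IActRat.add {f g : ℍ → ℂ} (hf : IActRat ι M f) (hg : IActRat ι M g) :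
    IActRat ι M (f + g) := by
  obtain ⟨φ, hφ⟩ := hf
  obtain ⟨ψ, hψ⟩ := hg
  exact ⟨φ + ψ, by rw [map_add]; exact hφ.add hψ⟩

theorem IActRat.neg {f : ℍ → ℂ} (hf : IActRat ι M f) : IActRat ι M (-f) := by
  obtain ⟨φ, hφ⟩ := hf
  exact ⟨-φ, by rw [map_neg]; exact hφ.neg⟩

theorem IActRat.mul {f g : ℍ → ℂ} (hf : IActRat ι M f) (hg : IActRat ι M g) :
    IActRat ι M (f * g) := by
  obtain ⟨φ, hφ⟩ := hf
  obtain ⟨ψ, hψ⟩ := hg
  exact ⟨φ * ψ, by rw [map_mul]; exact hφ.mul hψ⟩

variable (ι M)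

/-- The ring of holomorphic level-`M` modular functions, `E`-rational at every cusp. -/
def iactRing : Subring (ℍ → ℂ) where
  carrier := {f | MDiff f ∧ (∀ γ ∈ CongruenceSubgroup.Gamma M, compSL γ f = f) ∧
    ∀ γ : SL(2, ℤ), IActRat ι M (compSL γ f)}
  mul_mem' := by
    rintro f g ⟨hf, hf1, hf2⟩ ⟨hg, hg1, hg2⟩
    refine ⟨hf.mul hg, fun γ hγ => ?_, fun γ => ?_⟩
    · show compSL γ f * compSL γ g = f * g
      rw [hf1 γ hγ, hg1 γ hγ]
    · exact (hf2 γ).mul (hg2 γ)
  one_mem' := ⟨mdifferentiable_const, fun _ _ => rfl, fun _ => IActRat.one⟩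
  add_mem' := by
    rintro f g ⟨hf, hf1, hf2⟩ ⟨hg, hg1, hg2⟩
    refine ⟨hf.add hg, fun γ hγ => ?_, fun γ => ?_⟩
    · show compSL γ f + compSL γ g = f + g
      rw [hf1 γ hγ, hg1 γ hγ]
    · exact (hf2 γ).add (hg2 γ)
  zero_mem' := ⟨mdifferentiable_const, fun _ _ => rfl, fun _ => IActRat.zero⟩
  neg_mem' := by
    rintro f ⟨hf, hf1, hf2⟩
    refine ⟨hf.neg, fun γ hγ => ?_, fun γ => ?_⟩
    · show -compSL γ f = -f
      rw [hf1 γ hγ]
    · exact (hf2 γ).neg

variable {ι M}

theorem mem_iactRing {f : ℍ → ℂ} :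
    f ∈ iactRing ι M ↔ MDiff f ∧ (∀ γ ∈ CongruenceSubgroup.Gamma M, compSL γ f = f) ∧
      ∀ γ : SL(2, ℤ), IActRat ι M (compSL γ f) := Iff.rfl

theorem const_mem_iactRing (c : E) : (fun _ : ℍ => ι c) ∈ iactRing ι M :=
  ⟨mdifferentiable_const, fun _ _ => rfl, fun _ => IActRat.const c⟩

/-- `iactRing` is stable under precomposition with `SL(2,ℤ)`. -/
theorem compSL_mem_iactRing (g : SL(2, ℤ)) {f : ℍ → ℂ} (hf : f ∈ iactRing ι M) :
    compSL g f ∈ iactRing ι M := by
  obtain ⟨h0, h1, h2⟩ := hf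
  refine ⟨(precompSL g ⟨f, h0⟩).2, fun δ hδ => ?_, fun γ => ?_⟩
  · have hn : g * δ * g⁻¹ ∈ CongruenceSubgroup.Gamma M :=
      (CongruenceSubgroup.Gamma_normal M).conj_mem δ hδ g
    have e : g * δ = (g * δ * g⁻¹) * g := by group
    rw [← compSL_mul, e, compSL_mul, h1 _ hn]
  · rw [← compSL_mul]
    exact h2 _

theorem iactRat_self (f : iactRing ι M) : IActRat ι M (f : ℍ → ℂ) := by
  have := f.2.2.2 1
  rwa [compSL_one] at this

variable [NeZero M]

theorem iact_unique {f : ℍ → ℂ} {φ ψ : LaurentSeries E} (hφ : InfExp M f (coeffMap ι φ))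
    (hψ : InfExp M f (coeffMap ι ψ)) : φ = ψ :=
  inf_coeffMap_injective ι.injective (hφ.unique hψ)

variable (ι M)

/-- The `X`-expansion at `∞` of an element of `iactRing`, as a Laurent series over `E`. -/
def iactExpFun (f : iactRing ι M) : LaurentSeries E := Classical.choose (iactRat_self f)

variable {ι M}

theorem iactExpFun_spec (f : iactRing ι M) :
    InfExp M (f : ℍ → ℂ) (coeffMap ι (iactExpFun ι M f)) :=
  Classical.choose_spec (iactRat_self f)

theorem iactExpFun_eq {f : iactRing ι M} {φ : LaurentSeries E}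
    (h : InfExp M (f : ℍ → ℂ) (coeffMap ι φ)) : iactExpFun ι M f = φ :=
  iact_unique (iactExpFun_spec f) h

variable (ι M)

/-- The `X`-expansion at `∞` as a ring homomorphism `iactRing ι M →+* LaurentSeries E`. -/
def iactExp : iactRing ι M →+* LaurentSeries E where
  toFun := iactExpFun ι M
  map_one' := iactExpFun_eq (by rw [map_one]; exact InfExp.one)
  map_mul' f g := iactExpFun_eq (by
    rw [map_mul]; exact (iactExpFun_spec f).mul (iactExpFun_spec g))
  map_zero' := iactExpFun_eq (by rw [map_zero]; exact InfExp.zero)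
  map_add' f g := iactExpFun_eq (by
    rw [map_add]; exact (iactExpFun_spec f).add (iactExpFun_spec g))

variable {ι M}

theorem iactExp_spec (f : iactRing ι M) :
    InfExp M (f : ℍ → ℂ) (coeffMap ι (iactExp ι M f)) := iactExpFun_spec f

theorem iactExp_eq {f : iactRing ι M} {φ : LaurentSeries E}
    (h : InfExp M (f : ℍ → ℂ) (coeffMap ι φ)) : iactExp ι M f = φ := iactExpFun_eq h

theorem iactExp_injective : Function.Injective (iactExp ι M) := by
  intro f g h
  apply Subtype.ext
  have hf := iactExp_spec f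
  rw [h] at hf
  exact hf.fun_unique (iactExp_spec g)

/-- The constant function `ι c` as an element of `iactRing`. -/
def iactConst (c : E) : iactRing ι M := ⟨fun _ => ι c, const_mem_iactRing c⟩

theorem iactExp_const (c : E) : iactExp ι M (iactConst c) = HahnSeries.C c :=
  iactExp_eq (by rw [iact_coeffMap_C]; exact InfExp.const (ι c))

instance iactRing_isDomain : IsDomain (iactRing ι M) :=
  (iactExp_injective (ι := ι) (M := M)).isDomain _

/-! ### the action of `SL(2,ℤ)` -/

variable (ι M)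

/-- Precomposition with `g` as a ring endomorphism of `iactRing`. -/
def iactComp (g : SL(2, ℤ)) : iactRing ι M →+* iactRing ι M where
  toFun f := ⟨compSL g f, compSL_mem_iactRing g f.2⟩
  map_one' := rfl
  map_mul' _ _ := rfl
  map_zero' := rfl
  map_add' _ _ := rfl

variable {ι M}

@[simp] theorem iactComp_apply (g : SL(2, ℤ)) (f : iactRing ι M) (τ : ℍ) :
    (iactComp ι M g f : ℍ → ℂ) τ = (f : ℍ → ℂ) (g • τ) := rfl

theorem iactComp_one (f : iactRing ι M) : iactComp ι M 1 f = f := by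
  apply Subtype.ext; funext τ; simp

theorem iactComp_mul (g h : SL(2, ℤ)) (f : iactRing ι M) :
    iactComp ι M (g * h) f = iactComp ι M h (iactComp ι M g f) := by
  apply Subtype.ext; funext τ; simp [mul_smul]

theorem iactComp_of_mem_Gamma {g : SL(2, ℤ)} (hg : g ∈ CongruenceSubgroup.Gamma M)
    (f : iactRing ι M) : iactComp ι M g f = f :=
  Subtype.ext (f.2.2.1 g hg)

/-- Left action of `SL(2,ℤ)` on `iactRing`: `(γ • f) τ = f (γ⁻¹ • τ)`. -/
instance iactMulSemiringAction : MulSemiringAction SL(2, ℤ) (iactRing ι M) where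
  smul γ f := iactComp ι M γ⁻¹ f
  one_smul f := by
    show iactComp ι M (1 : SL(2, ℤ))⁻¹ f = f
    rw [inv_one, iactComp_one]
  mul_smul γ δ f := by
    show iactComp ι M (γ * δ)⁻¹ f = iactComp ι M γ⁻¹ (iactComp ι M δ⁻¹ f)
    rw [mul_inv_rev, iactComp_mul]
  smul_zero γ := map_zero _
  smul_add γ f g := map_add _ f g
  smul_one γ := map_one _
  smul_mul γ f g := map_mul _ f g

theorem iact_smul_def (γ : SL(2, ℤ)) (f : iactRing ι M) : γ • f = iactComp ι M γ⁻¹ f := rfl

theorem iact_smul_apply (γ : SL(2, ℤ)) (f : iactRing ι M) (τ : ℍ) :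
    ((γ • f : iactRing ι M) : ℍ → ℂ) τ = (f : ℍ → ℂ) (γ⁻¹ • τ) := rfl

theorem iact_smul_of_mem_Gamma {γ : SL(2, ℤ)} (hγ : γ ∈ CongruenceSubgroup.Gamma M)
    (f : iactRing ι M) : γ • f = f :=
  iactComp_of_mem_Gamma (inv_mem hγ) f

theorem iact_smul_const (γ : SL(2, ℤ)) (c : E) :
    γ • (iactConst c : iactRing ι M) = iactConst c := rfl

end Fermat.Agent.S48.H828
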